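import Fermat.Agent.Dihedral.Eigen
import Fermat.Agent.EichlerShimura.IntegralStructure
import Fermat.Agent.S20

/-!
# Dihedral residual modularity modulo 2

Residual modularity of dihedral representations modulo 2.
-/

noncomputable section

namespace Fermat.Agent.Dihedral

open NumberField
open scoped nonZeroDivisors

variable (K : Type) [Field K] [NumberField K]

/-- For an imaginary quadratic field `K` in which `2` is inert and a cubic class character `χ`,
some normalised eigenform of weight `2` and level `|d_K|` has `a_ℓ ≡ tr ρ_χ(Frob_ℓ)` modulo a prime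
above `2`, for every prime `ℓ`; in particular it is ordinary at `2`. -/
theorem exists_dihedral_eigenform [IsTotallyComplex K] (hdeg : Module.finrank ℚ K = 2)
    (hinert : (Ideal.span {(2 : 𝓞 K)}).IsPrime)
    (χ : ClassGroup (𝓞 K) →* Multiplicative (ZMod 3)) (hχ : χ ≠ 1) :
    ∃ f : CuspForm (CongruenceSubgroup.Gamma0 (discr K).natAbs) 2, f.IsNormalizedEigenform ∧
      ∃ Q : Ideal (integralClosure ℤ ℂ), Q.IsMaximal ∧ (2 : integralClosure ℤ ℂ) ∈ Q ∧
        ∀ ℓ : ℕ, ℓ.Prime → ∃ a : integralClosure ℤ ℂ,
          (a : ℂ) = ModularFormClass.qCoeff f ℓ ∧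
            a - ((traceTwo K χ ℓ : ℤ) : integralClosure ℤ ℂ) ∈ Q := by
  have : IsImagQuadratic K := ⟨hdeg, inferInstance⟩
  have : NeZero (discr K).natAbs := ⟨natAbs_discr_ne_zero K⟩
  exact exists_dihedral_eigenform_of_integralStructure χ
    (EichlerShimura.hasIntegralStructure_two_of_genusFormula_le (S20.result _).symm.le) hinert hχ

end Fermat.Agent.Dihedral
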