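import Fermat.Agent.Dihedral.QuadField

/-!
# Splitting of rational primes

Decomposition of rational primes in an imaginary quadratic field.
-/

noncomputable section

namespace Fermat.Agent.Dihedral

open NumberField
open scoped nonZeroDivisors

variable {K : Type*} [Field K] [NumberField K] [IsImagQuadratic K]

theorem absNorm_span_natCast (n : ℕ) :
    Ideal.absNorm (Ideal.span {(n : 𝓞 K)}) = n ^ 2 := by
  rw [← Int.natCast_inj, absNorm_span_eq,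
    show ((n : ℕ) : 𝓞 K) = algebraMap ℤ (𝓞 K) (n : ℤ) by simp, Algebra.norm_algebraMap,
    RingOfIntegers.rank, IsImagQuadratic.finrank_eq]
  push_cast; rfl

omit [IsImagQuadratic K] in
theorem dvd_discr_of_sq_dvd {ℓ : ℕ} (hℓ : ℓ.Prime) {P : Ideal (𝓞 K)}
    (hN : Ideal.absNorm P = ℓ) (h : P ^ 2 ∣ Ideal.span {(ℓ : 𝓞 K)}) : (ℓ : ℤ) ∣ discr K := by
  have hp : Prime (ℓ : ℤ) := Nat.prime_iff_prime_int.1 hℓ
  have : (Ideal.span {(ℓ : ℤ)}).IsMaximal :=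
    ((Ideal.span_singleton_prime hp.ne_zero).2 hp).isMaximal (by simpa using hp.ne_zero)
  have hd := pow_sub_one_dvd_differentIdeal ℤ (B := 𝓞 K) (p := Ideal.span {(ℓ : ℤ)}) P 2
    (by simpa using hp.ne_zero) (by rw [Ideal.map_span, Set.image_singleton]; simpa using h)
  have h2 : ℓ ∣ (discr K).natAbs := by
    rw [← NumberField.absNorm_differentIdeal K (𝓞 K), ← hN]
    exact map_dvd Ideal.absNorm (by simpa using hd)
  exact Int.natCast_dvd.2 h2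

omit [IsImagQuadratic K] in
theorem not_dvd_discr_of_squarefree {ℓ : ℕ} (hℓ : ℓ.Prime)
    (h : ∀ P : Ideal (𝓞 K), P.IsMaximal → (ℓ : 𝓞 K) ∈ P →
      ∃ R : Ideal (𝓞 K), IsCoprime P R ∧ P * R = Ideal.span {(ℓ : 𝓞 K)}) :
    ¬ (ℓ : ℤ) ∣ discr K := by
  intro hd
  have hp : Prime (ℓ : ℤ) := Nat.prime_iff_prime_int.1 hℓ
  rw [← Int.dvd_natAbs, ← NumberField.absNorm_differentIdeal K (𝓞 K)] at hd
  obtain ⟨P, hP, hPu, hPd⟩ := Ideal.exists_isMaximal_dvd_of_dvd_absNorm hp _ hd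
  have hℓP : (ℓ : 𝓞 K) ∈ P := by
    have hl : (ℓ : ℤ) ∈ P.under ℤ := by rw [hPu]; exact Ideal.mem_span_singleton_self _
    rw [Ideal.mem_comap] at hl
    simpa using hl
  obtain ⟨R, hco, hmul⟩ := h P hP hℓP
  have hpm : (Ideal.span {(ℓ : ℤ)}).IsMaximal :=
    ((Ideal.span_singleton_prime hp.ne_zero).2 hp).isMaximal (by simpa using hp.ne_zero)
  have : P.LiesOver (Ideal.span {(ℓ : ℤ)}) := ⟨hPu.symm⟩
  have : Finite (ℤ ⧸ Ideal.span {(ℓ : ℤ)}) :=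
    Ideal.finiteQuotientOfFreeOfNeBot _ (by simpa using hp.ne_zero)
  let _ : Field (ℤ ⧸ Ideal.span {(ℓ : ℤ)}) := Ideal.Quotient.field _
  let _ : Field (𝓞 K ⧸ P) := Ideal.Quotient.field _
  have : Algebra.IsSeparable (ℤ ⧸ Ideal.span {(ℓ : ℤ)}) (𝓞 K ⧸ P) :=
    Algebra.IsAlgebraic.isSeparable_of_perfectField
  refine not_dvd_differentIdeal_of_isCoprime_of_isSeparable ℤ
    (p := Ideal.span {(ℓ : ℤ)}) P R hco ?_ hPd
  rw [hmul, Ideal.map_span, Set.image_singleton]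
  simp

/-- The three decomposition types. -/
theorem prime_cases {ℓ : ℕ} (hℓ : ℓ.Prime) :
    ((ℓ : ℤ) ∣ discr K ∧ ∃ P : Ideal (𝓞 K), P.IsMaximal ∧ Ideal.absNorm P = ℓ ∧
        P * P = Ideal.span {(ℓ : 𝓞 K)} ∧
        ∀ Q : Ideal (𝓞 K), Q.IsPrime → (ℓ : 𝓞 K) ∈ Q → Q = P) ∨
    (¬ (ℓ : ℤ) ∣ discr K ∧ ∃ P P' : Ideal (𝓞 K), P.IsMaximal ∧ P'.IsMaximal ∧ P ≠ P' ∧
        Ideal.absNorm P = ℓ ∧ Ideal.absNorm P' = ℓ ∧ P * P' = Ideal.span {(ℓ : 𝓞 K)} ∧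
        ∀ Q : Ideal (𝓞 K), Q.IsPrime → (ℓ : 𝓞 K) ∈ Q → Q = P ∨ Q = P') ∨
    (¬ (ℓ : ℤ) ∣ discr K ∧ (Ideal.span {(ℓ : 𝓞 K)}).IsMaximal ∧
        ∀ Q : Ideal (𝓞 K), Q.IsPrime → (ℓ : 𝓞 K) ∈ Q → Q = Ideal.span {(ℓ : 𝓞 K)}) := by
  set L := Ideal.span {(ℓ : 𝓞 K)} with hL
  have hNL : Ideal.absNorm L = ℓ ^ 2 := absNorm_span_natCast ℓ
  obtain ⟨P, hP, -, P', hPP'⟩ := Ideal.exists_isMaximal_dvd_of_dvd_absNorm' hℓ L
    (by rw [hNL]; exact dvd_pow_self _ two_ne_zero)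
  have hN : Ideal.absNorm P * Ideal.absNorm P' = ℓ ^ 2 := by
    rw [← map_mul, ← hPP', hNL]
  obtain ⟨i, hi, hNP⟩ := (Nat.dvd_prime_pow hℓ).1 (hN ▸ Dvd.intro _ rfl)
  have huniq : ∀ Q : Ideal (𝓞 K), Q.IsPrime → (ℓ : 𝓞 K) ∈ Q → P ≤ Q ∨ P' ≤ Q := fun Q hQ hmem =>
    hQ.mul_le.1 (hPP' ▸ (Ideal.span_singleton_le_iff_mem Q).2 hmem)
  have hQmax : ∀ Q : Ideal (𝓞 K), Q.IsPrime → (ℓ : 𝓞 K) ∈ Q → Q ≠ ⊤ := fun Q hQ _ => hQ.ne_top
  interval_cases i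
  · exact absurd (Ideal.absNorm_eq_one_iff.1 (by simpa using hNP)) hP.ne_top
  · rw [pow_one] at hNP
    have hNP' : Ideal.absNorm P' = ℓ := by
      rw [hNP, sq] at hN; exact Nat.eq_of_mul_eq_mul_left hℓ.pos hN
    have hP' : P'.IsMaximal :=
      (Ideal.isPrime_of_irreducible_absNorm
        (by rw [hNP']; exact (Nat.irreducible_iff_nat_prime ℓ).2 hℓ)).isMaximal (by
          intro h; rw [h, Ideal.absNorm_bot] at hNP'; exact hℓ.ne_zero hNP'.symm)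
    have hQ : ∀ Q : Ideal (𝓞 K), Q.IsPrime → (ℓ : 𝓞 K) ∈ Q → Q = P ∨ Q = P' := fun Q hQ hmem =>
      (huniq Q hQ hmem).imp (fun h => (hP.eq_of_le hQ.ne_top h).symm)
        (fun h => (hP'.eq_of_le hQ.ne_top h).symm)
    by_cases he : P = P'
    · subst he
      exact Or.inl ⟨dvd_discr_of_sq_dvd hℓ hNP (by rw [sq, ← hPP']), P, hP, hNP, hPP'.symm,
        fun Q h h' => (hQ Q h h').elim id id⟩
    · refine Or.inr (Or.inl ⟨not_dvd_discr_of_squarefree hℓ fun Q hQm hmem => ?_,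
        P, P', hP, hP', he, hNP, hNP', hPP'.symm, hQ⟩)
      rcases hQ Q hQm.isPrime hmem with rfl | rfl
      · exact ⟨P', Ideal.isCoprime_iff_sup_eq.2 (hP.coprime_of_ne hP' he), hPP'.symm⟩
      · exact ⟨P, Ideal.isCoprime_iff_sup_eq.2 (hP'.coprime_of_ne hP (Ne.symm he)),
          by rw [mul_comm]; exact hPP'.symm⟩
  · have hP'1 : P' = ⊤ := by
      rw [← Ideal.absNorm_eq_one_iff]
      rw [hNP] at hN
      exact Nat.eq_of_mul_eq_mul_left (pow_pos hℓ.pos 2) (hN.trans (mul_one _).symm)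
    rw [hP'1, Ideal.mul_top] at hPP'
    have hQ : ∀ Q : Ideal (𝓞 K), Q.IsPrime → (ℓ : 𝓞 K) ∈ Q → Q = L := fun Q hQ hmem =>
      ((hPP' ▸ hP).eq_of_le hQ.ne_top ((Ideal.span_singleton_le_iff_mem Q).2 hmem)).symm
    refine Or.inr (Or.inr ⟨not_dvd_discr_of_squarefree hℓ fun Q hQm hmem => ⟨⊤, ?_, ?_⟩,
      hPP' ▸ hP, hQ⟩)
    · exact Ideal.isCoprime_iff_sup_eq.2 (by simp)
    · rw [Ideal.mul_top, hQ Q hQm.isPrime hmem]

omit [IsImagQuadratic K] in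
/-- A prime dividing the norm of an ideal lies in some prime factor. -/
theorem exists_prime_factor {ℓ : ℕ} (hℓ : ℓ.Prime) {b : Ideal (𝓞 K)}
    (h : ℓ ∣ Ideal.absNorm b) :
    ∃ Q : Ideal (𝓞 K), Q.IsPrime ∧ (ℓ : 𝓞 K) ∈ Q ∧ Q ∣ b := by
  obtain ⟨Q, hQ, hQu, hQb⟩ := Ideal.exists_isMaximal_dvd_of_dvd_absNorm' hℓ b h
  refine ⟨Q, hQ.isPrime, ?_, hQb⟩
  have hl : (ℓ : ℤ) ∈ Q.under ℤ := by rw [hQu]; exact Ideal.mem_span_singleton_self _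
  rw [Ideal.mem_comap] at hl
  simpa using hl

end Fermat.Agent.Dihedral
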