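import Fermat.Agent.Dihedral.IdealCount
import Fermat.Agent.Dihedral.Primes

/-!
# Coefficients of the dihedral theta series

The coefficients `b(n) = ∑_{N𝔟 = n} ψ(χ[𝔟])` of the weight one dihedral theta series: their Hecke
recursion at every prime, their integrality and their residues mod `2`.
-/

noncomputable section

namespace Fermat.Agent.Dihedral

open NumberField
open scoped nonZeroDivisors

variable {K : Type*} [Field K] [NumberField K] [IsImagQuadratic K]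

/-- A cubic class character with values in `ℂ`. -/
def chiC (χ : ClassGroup (𝓞 K) →* Multiplicative (ZMod 3)) : ClassGroup (𝓞 K) →* ℂ :=
  (ZMod.stdAddChar (N := 3)).toMonoidHom.comp χ

variable (χ : ClassGroup (𝓞 K) →* Multiplicative (ZMod 3))

omit [NumberField K] [IsImagQuadratic K] in
theorem chiC_apply (C : ClassGroup (𝓞 K)) :
    chiC χ C = ZMod.stdAddChar (Multiplicative.toAdd (χ C)) := rfl

omit [IsImagQuadratic K] [NumberField K] in
theorem chiC_eq_one_iff (C : ClassGroup (𝓞 K)) : chiC χ C = 1 ↔ χ C = 1 := by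
  rw [chiC_apply, ← AddChar.map_zero_eq_one (ZMod.stdAddChar (N := 3)),
    ZMod.injective_stdAddChar.eq_iff]
  exact toAdd_eq_zero

omit [IsImagQuadratic K] [NumberField K] in
theorem chiC_cube (C : ClassGroup (𝓞 K)) : chiC χ C ^ 3 = 1 := by
  rw [chiC_apply, ← AddChar.map_nsmul_eq_pow]
  rw [show 3 • Multiplicative.toAdd (χ C) = 0 from by
    rw [nsmul_eq_mul, show ((3 : ℕ) : ZMod 3) = 0 from rfl, zero_mul]]
  exact AddChar.map_zero_eq_one _

omit [IsImagQuadratic K] in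
theorem chiC_add_sq {C : ClassGroup (𝓞 K)} (h : χ C ≠ 1) :
    chiC χ C + chiC χ C ^ 2 = -1 := by
  have h1 : chiC χ C - 1 ≠ 0 := sub_ne_zero.2 fun h' => h ((chiC_eq_one_iff χ C).1 h')
  have : (chiC χ C - 1) * (chiC χ C + chiC χ C ^ 2 + 1) = 0 := by
    linear_combination chiC_cube χ C
  linear_combination (mul_eq_zero.1 this).resolve_left h1

/-- The ideals of norm `n`. -/
def normSet (n : ℕ) : Finset (Ideal (𝓞 K)) :=
  (Ideal.finite_setOfPred_absNorm_eq n).toFinset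

omit [IsImagQuadratic K] in
theorem mem_normSet {n : ℕ} {b : Ideal (𝓞 K)} : b ∈ normSet n ↔ Ideal.absNorm b = n := by
  simp [normSet]

/-- The `n`-th coefficient of the dihedral theta series. -/
def bsum (n : ℕ) : ℂ :=
  if n = 0 then 0 else ∑ b ∈ normSet n, chiC χ (classOf b)

omit [IsImagQuadratic K] in
theorem bsum_zero : bsum χ 0 = 0 := if_pos rfl

omit [IsImagQuadratic K] in
theorem bsum_of_ne_zero {n : ℕ} (hn : n ≠ 0) :
    bsum χ n = ∑ b ∈ normSet n, chiC χ (classOf b) := if_neg hn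

omit [IsImagQuadratic K] in
theorem ne_bot_of_mem_normSet {n : ℕ} (hn : n ≠ 0) {b : Ideal (𝓞 K)} (hb : b ∈ normSet n) :
    b ≠ ⊥ := fun h => hn (by rw [← mem_normSet.1 hb, h, Ideal.absNorm_bot])

omit [IsImagQuadratic K] in
theorem bsum_one : bsum χ 1 = 1 := by
  have h : normSet (K := K) 1 = {⊤} := by
    ext b; simp [mem_normSet, Ideal.absNorm_eq_one_iff]
  rw [bsum_of_ne_zero χ one_ne_zero, h, Finset.sum_singleton, ← Ideal.span_singleton_one,
    classOf_span one_ne_zero, map_one]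

/-- `b(n / q)`, understood to be zero unless `q` divides `n`. -/
def bdiv (q n : ℕ) : ℂ := if q ∣ n then bsum χ (n / q) else 0

open scoped Classical in
omit [IsImagQuadratic K] in
theorem sum_filter_dvd {P : Ideal (𝓞 K)} (hP : P ≠ ⊥) {n : ℕ} (hn : n ≠ 0) :
    ∑ b ∈ (normSet n).filter (P ∣ ·), chiC χ (classOf b) =
      chiC χ (classOf P) * bdiv χ (Ideal.absNorm P) n := by
  by_cases hd : Ideal.absNorm P ∣ n
  · obtain ⟨m, hm⟩ := hd
    have hm0 : m ≠ 0 := fun h => hn (by rw [hm, h, mul_zero])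
    have hP0 : 0 < Ideal.absNorm P := Nat.pos_of_ne_zero fun h => hP (Ideal.absNorm_eq_zero_iff.1 h)
    have him : (normSet n).filter (P ∣ ·) = (normSet m).image (P * ·) := by
      ext b
      simp only [Finset.mem_filter, Finset.mem_image, mem_normSet]
      constructor
      · rintro ⟨hb, R, rfl⟩
        rw [map_mul, hm] at hb
        exact ⟨R, Nat.eq_of_mul_eq_mul_left hP0 hb, rfl⟩
      · rintro ⟨R, hR, rfl⟩
        exact ⟨by rw [map_mul, hR, hm], Dvd.intro R rfl⟩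
    rw [him, Finset.sum_image fun _ _ _ _ h => mul_left_cancel₀ hP h, bdiv,
      if_pos (Dvd.intro m hm.symm), hm, Nat.mul_div_cancel_left m hP0, bsum_of_ne_zero χ hm0,
      Finset.mul_sum]
    refine Finset.sum_congr rfl fun R hR => ?_
    rw [classOf_mul hP (ne_bot_of_mem_normSet hm0 hR), map_mul]
  · have : (normSet n).filter (P ∣ ·) = ∅ := by
      ext b
      simp only [Finset.mem_filter, mem_normSet, Finset.notMem_empty, iff_false, not_and]
      rintro rfl hb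
      exact hd (map_dvd Ideal.absNorm hb)
    rw [this, Finset.sum_empty, bdiv, if_neg hd, mul_zero]

open scoped Classical in
theorem bsum_mul_of_all_dvd {P : Ideal (𝓞 K)} (hP : P ≠ ⊥) {m : ℕ}
    (h : ∀ b ∈ normSet (K := K) m, P ∣ b) (hm : m ≠ 0) :
    bsum χ m = chiC χ (classOf P) * bdiv χ (Ideal.absNorm P) m := by
  rw [← sum_filter_dvd χ hP hm, Finset.filter_true_of_mem h, bsum_of_ne_zero χ hm]

open scoped Classical in
/-- The recursion at a prime which splits. -/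
theorem bsum_mul_split {ℓ : ℕ} (hℓ : ℓ.Prime) {P P' : Ideal (𝓞 K)} (hPm : P.IsMaximal)
    (hP'm : P'.IsMaximal) (hne : P ≠ P') (hN : Ideal.absNorm P = ℓ) (hN' : Ideal.absNorm P' = ℓ)
    (hprod : P * P' = Ideal.span {(ℓ : 𝓞 K)})
    (hQ : ∀ Q : Ideal (𝓞 K), Q.IsPrime → (ℓ : 𝓞 K) ∈ Q → Q = P ∨ Q = P') (n : ℕ) :
    bsum χ (ℓ * n) =
      (chiC χ (classOf P) + chiC χ (classOf P) ^ 2) * bsum χ n - bdiv χ ℓ n := by
  rcases eq_or_ne n 0 with rfl | hn
  · simp [bsum_zero, bdiv]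
  have hP0 : P ≠ ⊥ := fun h => hℓ.ne_zero (by rw [← hN, h, Ideal.absNorm_bot])
  have hP'0 : P' ≠ ⊥ := fun h => hℓ.ne_zero (by rw [← hN', h, Ideal.absNorm_bot])
  have hln : ℓ * n ≠ 0 := mul_ne_zero hℓ.ne_zero hn
  have hxx : chiC χ (classOf P) * chiC χ (classOf P') = 1 := by
    rw [← map_mul, ← classOf_mul hP0 hP'0, hprod, classOf_span (Nat.cast_ne_zero.2 hℓ.ne_zero),
      map_one]
  have hx' : chiC χ (classOf P') = chiC χ (classOf P) ^ 2 := by
    calc chiC χ (classOf P') = chiC χ (classOf P) ^ 3 * chiC χ (classOf P') := by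
          rw [chiC_cube, one_mul]
      _ = chiC χ (classOf P) ^ 2 := by linear_combination chiC χ (classOf P) ^ 2 * hxx
  have hdiv : ¬ P ∣ P' := fun h =>
    hne (hP'm.eq_of_le hPm.ne_top (Ideal.le_of_dvd h)).symm
  have hsecond : (normSet (ℓ * n)).filter (fun b => ¬ P ∣ b) =
      ((normSet n).filter fun b => ¬ P ∣ b).image (P' * ·) := by
    ext b
    simp only [Finset.mem_filter, Finset.mem_image, mem_normSet]
    constructor
    · rintro ⟨hb, hPb⟩
      obtain ⟨Q, hQp, hQm, hQb⟩ := exists_prime_factor hℓ (hb ▸ Dvd.intro n rfl)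
      rcases hQ Q hQp hQm with rfl | rfl
      · exact absurd hQb hPb
      · obtain ⟨R, rfl⟩ := hQb
        refine ⟨R, ⟨?_, fun h => hPb (dvd_mul_of_dvd_right h _)⟩, rfl⟩
        rw [map_mul, hN'] at hb
        exact Nat.eq_of_mul_eq_mul_left hℓ.pos hb
    · rintro ⟨R, ⟨hR, hPR⟩, rfl⟩
      refine ⟨by rw [map_mul, hN', hR], fun h => ?_⟩
      rcases ((Ideal.prime_iff_isPrime hP0).2 hPm.isPrime).dvd_or_dvd h with h | h
      exacts [hdiv h, hPR h]
  have hbd : bdiv χ ℓ (ℓ * n) = bsum χ n := by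
    rw [bdiv, if_pos (Dvd.intro n rfl), Nat.mul_div_cancel_left n hℓ.pos]
  rw [bsum_of_ne_zero χ hln, ← Finset.sum_filter_add_sum_filter_not _ (P ∣ ·), hsecond,
    sum_filter_dvd χ hP0 hln, hN, hbd, Finset.sum_image fun _ _ _ _ h => mul_left_cancel₀ hP'0 h]
  have hsplit : ∑ R ∈ (normSet n).filter (fun b => ¬ P ∣ b), chiC χ (classOf R) =
      bsum χ n - chiC χ (classOf P) * bdiv χ ℓ n := by
    rw [← hN, ← sum_filter_dvd χ hP0 hn, bsum_of_ne_zero χ hn,
      ← Finset.sum_filter_add_sum_filter_not (normSet n) (P ∣ ·), add_sub_cancel_left]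
  have hmul : ∑ R ∈ (normSet n).filter (fun b => ¬ P ∣ b), chiC χ (classOf (P' * R)) =
      chiC χ (classOf P') * (bsum χ n - chiC χ (classOf P) * bdiv χ ℓ n) := by
    rw [← hsplit, Finset.mul_sum]
    refine Finset.sum_congr rfl fun R hR => ?_
    rw [classOf_mul hP'0 (ne_bot_of_mem_normSet hn (Finset.mem_filter.1 hR).1), map_mul]
  rw [hmul, hx']
  linear_combination -(bdiv χ ℓ n) * chiC_cube χ (classOf P)

/-- The Hecke recursion of the coefficients at every prime, in the three cases of decomposition. -/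
theorem bsum_mul_cases {ℓ : ℕ} (hℓ : ℓ.Prime) :
    ((ℓ : ℤ) ∣ discr K ∧ ∀ n, bsum χ (ℓ * n) = bsum χ n) ∨
    (¬ (ℓ : ℤ) ∣ discr K ∧ (∃ P : (Ideal (𝓞 K))⁰, (P : Ideal (𝓞 K)).IsPrime ∧
        Ideal.absNorm (P : Ideal (𝓞 K)) = ℓ) ∧
      ∃ a : ℤ, (∀ n, bsum χ (ℓ * n) = a * bsum χ n - bdiv χ ℓ n) ∧
        ((a : ZMod 2) = 1 ∧ (∃ P : (Ideal (𝓞 K))⁰, (P : Ideal (𝓞 K)).IsPrime ∧
            Ideal.absNorm (P : Ideal (𝓞 K)) = ℓ ∧ χ (ClassGroup.mk0 P) ≠ 1) ∨
          (a : ZMod 2) = 0 ∧ ¬ ∃ P : (Ideal (𝓞 K))⁰, (P : Ideal (𝓞 K)).IsPrime ∧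
            Ideal.absNorm (P : Ideal (𝓞 K)) = ℓ ∧ χ (ClassGroup.mk0 P) ≠ 1)) ∨
    (¬ (ℓ : ℤ) ∣ discr K ∧ (¬ ∃ P : (Ideal (𝓞 K))⁰, (P : Ideal (𝓞 K)).IsPrime ∧
        Ideal.absNorm (P : Ideal (𝓞 K)) = ℓ) ∧ ∀ n, bsum χ (ℓ * n) = bdiv χ ℓ n) := by
  rcases prime_cases (K := K) hℓ with ⟨hd, P, hPm, hN, hprod, hQ⟩ |
    ⟨hd, P, P', hPm, hP'm, hne, hN, hN', hprod, hQ⟩ | ⟨hd, hLm, hQ⟩
  · refine Or.inl ⟨hd, fun n => ?_⟩
    rcases eq_or_ne n 0 with rfl | hn
    · simp [bsum_zero]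
    have hP0 : P ≠ ⊥ := fun h => hℓ.ne_zero (by rw [← hN, h, Ideal.absNorm_bot])
    have hx : chiC χ (classOf P) = 1 := by
      have h2 : chiC χ (classOf P) * chiC χ (classOf P) = 1 := by
        rw [← map_mul, ← classOf_mul hP0 hP0, hprod,
          classOf_span (Nat.cast_ne_zero.2 hℓ.ne_zero), map_one]
      linear_combination chiC_cube χ (classOf P) - chiC χ (classOf P) * h2
    rw [bsum_mul_of_all_dvd χ hP0 ?_ (mul_ne_zero hℓ.ne_zero hn), hx, one_mul, hN, bdiv,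
      if_pos (Dvd.intro n rfl), Nat.mul_div_cancel_left n hℓ.pos]
    intro b hb
    obtain ⟨Q, hQp, hQmem, hQb⟩ := exists_prime_factor hℓ (mem_normSet.1 hb ▸ Dvd.intro n rfl)
    exact hQ Q hQp hQmem ▸ hQb
  · have hP0 : P ≠ ⊥ := fun h => hℓ.ne_zero (by rw [← hN, h, Ideal.absNorm_bot])
    have hmem : P ∈ (Ideal (𝓞 K))⁰ := mem_nonZeroDivisors_iff_ne_zero.2 hP0
    refine Or.inr (Or.inl ⟨hd, ⟨⟨P, hmem⟩, hPm.isPrime, hN⟩, ?_⟩)
    by_cases hx : χ (classOf P) = 1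
    · refine ⟨2, fun n => ?_, Or.inr ⟨by decide, ?_⟩⟩
      · rw [bsum_mul_split χ hℓ hPm hP'm hne hN hN' hprod hQ n,
          (chiC_eq_one_iff χ _).2 hx]
        push_cast; ring
      · rintro ⟨R, hR, hRN, hRχ⟩
        have hRmem : (ℓ : 𝓞 K) ∈ (R : Ideal (𝓞 K)) := hRN ▸ Ideal.absNorm_mem _
        have hP'0 : P' ≠ ⊥ := fun h => hℓ.ne_zero (by rw [← hN', h, Ideal.absNorm_bot])
        have hx' : χ (classOf P') = 1 := by
          have : χ (classOf P) * χ (classOf P') = 1 := by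
            rw [← map_mul, ← classOf_mul hP0 hP'0, hprod,
              classOf_span (Nat.cast_ne_zero.2 hℓ.ne_zero), map_one]
          rwa [hx, one_mul] at this
        apply hRχ
        rw [← classOf_coe]
        rcases hQ _ hR hRmem with h | h <;> rw [h] <;> assumption
    · refine ⟨-1, fun n => ?_, Or.inl ⟨by decide, ⟨P, hmem⟩, hPm.isPrime, hN, ?_⟩⟩
      · rw [bsum_mul_split χ hℓ hPm hP'm hne hN hN' hprod hQ n, chiC_add_sq χ hx]
        push_cast; ring
      · rwa [← classOf_coe]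
  · refine Or.inr (Or.inr ⟨hd, ?_, fun n => ?_⟩)
    · rintro ⟨R, hR, hRN⟩
      have h := hQ _ hR (hRN ▸ Ideal.absNorm_mem _)
      rw [h, absNorm_span_natCast] at hRN
      have h2 := hℓ.two_le
      nlinarith
    · rcases eq_or_ne n 0 with rfl | hn
      · simp [bsum_zero, bdiv]
      have hL0 : Ideal.span {(ℓ : 𝓞 K)} ≠ ⊥ := by simp [hℓ.ne_zero]
      have hall : ∀ b ∈ normSet (K := K) (ℓ * n), Ideal.span {(ℓ : 𝓞 K)} ∣ b := by
        intro b hb
        obtain ⟨Q, hQp, hQmem, hQb⟩ :=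
          exists_prime_factor hℓ (mem_normSet.1 hb ▸ Dvd.intro n rfl)
        exact hQ Q hQp hQmem ▸ hQb
      rw [bsum_mul_of_all_dvd χ hL0 hall (mul_ne_zero hℓ.ne_zero hn), absNorm_span_natCast,
        classOf_span (Nat.cast_ne_zero.2 hℓ.ne_zero), map_one, one_mul]
      unfold bdiv
      simp only [sq, Nat.mul_dvd_mul_iff_left hℓ.pos, Nat.mul_div_mul_left _ _ hℓ.pos]

/-- The coefficients are rational integers. -/
theorem exists_bsum_int (n : ℕ) : ∃ z : ℤ, bsum χ n = z := by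
  induction n using Nat.strong_induction_on with
  | _ n ih =>
    rcases eq_or_ne n 0 with rfl | hn
    · exact ⟨0, by simp [bsum_zero]⟩
    rcases eq_or_ne n 1 with rfl | hn1
    · exact ⟨1, by simp [bsum_one]⟩
    obtain ⟨m, hm⟩ := Nat.minFac_dvd n
    have hp := Nat.minFac_prime hn1
    set p := n.minFac with hpdef
    clear_value p
    have hm0 : 0 < m := Nat.pos_of_ne_zero fun h => hn (by rw [hm, h, mul_zero])
    have hlt : m < n := hm ▸ lt_mul_of_one_lt_left hm0 hp.one_lt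
    obtain ⟨z, hz⟩ := ih m hlt
    obtain ⟨w, hw⟩ : ∃ w : ℤ, bdiv χ p m = w := by
      by_cases h : p ∣ m
      · obtain ⟨w, hw⟩ := ih (m / p) ((Nat.div_le_self m p).trans_lt hlt)
        exact ⟨w, by rw [bdiv, if_pos h, hw]⟩
      · exact ⟨0, by rw [bdiv, if_neg h]; simp⟩
    rw [hm]
    rcases bsum_mul_cases χ hp with ⟨-, h⟩ | ⟨-, -, a, h, -⟩ | ⟨-, -, h⟩
    · exact ⟨z, by rw [h, hz]⟩
    · exact ⟨a * z - w, by rw [h, hz, hw]; push_cast; ring⟩
    · exact ⟨w, by rw [h, hw]⟩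

/-- The integer underlying `bsum`. -/
def bInt (n : ℕ) : ℤ := (exists_bsum_int χ n).choose

theorem bsum_eq_bInt (n : ℕ) : bsum χ n = bInt χ n := (exists_bsum_int χ n).choose_spec

/-- The theta series is normalised: `b(1) = 1`. -/
theorem bInt_one : bInt χ 1 = 1 := by
  have h := bsum_eq_bInt χ 1
  rw [bsum_one] at h
  exact_mod_cast h.symm

/-- `b(n / q)` mod `2`, zero unless `q` divides `n`. -/
def betaDiv (q n : ℕ) : ZMod 2 := if q ∣ n then (bInt χ (n / q) : ZMod 2) else 0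

theorem bdiv_eq_int (q n : ℕ) :
    bdiv χ q n = ((if q ∣ n then bInt χ (n / q) else 0 : ℤ) : ℂ) := by
  rw [bdiv, bsum_eq_bInt]; split <;> simp

/-- At `2`, when it is inert, `b(2n) ≡ b(n/2)`. -/
theorem beta_two_mul (hinert : (Ideal.span {(2 : 𝓞 K)}).IsPrime) :
    ¬ (2 : ℤ) ∣ discr K ∧ ∀ n, (bInt χ (2 * n) : ZMod 2) = betaDiv χ 2 n := by
  have hno : ¬ ∃ P : Ideal (𝓞 K), P.IsPrime ∧ Ideal.absNorm P = 2 := by
    rintro ⟨P, hP, hN⟩
    have h0 : Ideal.span {(2 : 𝓞 K)} ≠ ⊥ := by simp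
    have h2 : (2 : 𝓞 K) ∈ P := by simpa [hN] using Ideal.absNorm_mem P
    have hL := (hinert.isMaximal h0).eq_of_le hP.ne_top ((Ideal.span_singleton_le_iff_mem P).2 h2)
    have h4 : Ideal.absNorm (Ideal.span {(2 : 𝓞 K)}) = 4 := by
      simpa using absNorm_span_natCast (K := K) 2
    rw [hL, hN] at h4
    omega
  have hd : ¬ (2 : ℤ) ∣ discr K := by
    intro hd
    rcases prime_cases (K := K) Nat.prime_two with ⟨-, P, hPm, hN, -⟩ | ⟨h, -⟩ | ⟨h, -⟩
    · exact hno ⟨P, hPm.isPrime, hN⟩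
    · exact h (by exact_mod_cast hd)
    · exact h (by exact_mod_cast hd)
  refine ⟨hd, fun n => ?_⟩
  rcases bsum_mul_cases χ Nat.prime_two with ⟨h, -⟩ | ⟨-, ⟨P, hP, hN⟩, -⟩ | ⟨-, -, h⟩
  · exact absurd (by exact_mod_cast h) hd
  · exact absurd ⟨(P : Ideal (𝓞 K)), hP, hN⟩ hno
  · have h' := h n
    rw [bsum_eq_bInt, bdiv_eq_int, Int.cast_inj] at h'
    rw [h', betaDiv]
    split <;> simp

end Fermat.Agent.Dihedral
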