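import Fermat.Agent.Dihedral.Inversion
import Fermat.Prelude.Def_FLTPrelim_Modularity
import Fermat.Prelude.Thm_CongruenceSubgroup_one_mem_strictPeriods_Gamma0

/-!
# Products of binary theta series as modular forms

Products of combinations of binary theta series as weight two forms on `Γ₀(D)`.
-/

noncomputable section

namespace Fermat.Agent.Dihedral

open Complex Real UpperHalfPlane Filter Topology
open scoped MatrixGroups ModularForm Manifold

variable {ι κ : Type*} [Fintype ι] [Fintype κ]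

/-- A combination of theta series, on the upper half plane. -/
def thetaSum (w : ι → ℂ) (Qs : ι → BinForm) : ℍ → ℂ := fun z => ∑ i, w i * (Qs i).theta z

theorem differentiableOn_theta (Q : BinForm) :
    DifferentiableOn ℂ Q.theta {z : ℂ | 0 < z.im} := by
  intro z hz
  have hopen : IsOpen {x : ℂ | z.im / 2 < x.im} := isOpen_lt continuous_const Complex.continuous_im
  have hd : DifferentiableOn ℂ Q.theta {x : ℂ | z.im / 2 < x.im} := by
    refine Complex.differentiableOn_tsum_of_summable_norm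
      (Q.summable_exp_ev 0 0 (half_pos hz)) (fun m => ?_) hopen fun m x hx => ?_
    · fun_prop
    · refine le_trans (le_of_eq ?_) (Q.norm_thetaTerm_le 0 0 (le_of_lt hx) m)
      simp [BinForm.thetaTerm]
  exact (hd.differentiableAt (hopen.mem_nhds (by
    show z.im / 2 < z.im
    exact half_lt_self hz))).differentiableWithinAt

theorem mdifferentiable_thetaSum (w : ι → ℂ) (Qs : ι → BinForm) :
    MDiff (thetaSum w Qs) := by
  rw [UpperHalfPlane.mdifferentiable_iff]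
  refine DifferentiableOn.congr
    (DifferentiableOn.fun_sum (u := Finset.univ) fun i _ => (differentiableOn_theta (Qs i)).const_mul (w i))
    fun z hz => ?_
  simp [thetaSum, Function.comp_apply, ofComplex_apply_of_im_pos hz]

theorem slash_one_apply (f : ℍ → ℂ) (γ : SL(2, ℤ)) (z : ℍ) :
    (f ∣[(1 : ℤ)] γ) z = f (γ • z) / ((γ 1 0 : ℂ) * z + γ 1 1) := by
  rw [ModularForm.SL_slash_apply, zpow_neg_one, div_eq_mul_inv, ModularGroup.denom_apply]

theorem coe_smul_SL (γ : SL(2, ℤ)) (z : ℍ) :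
    ((γ • z : ℍ) : ℂ) = ((γ 0 0 : ℂ) * z + γ 0 1) / ((γ 1 0 : ℂ) * z + γ 1 1) := by
  rw [coe_specialLinearGroup_apply]; simp

theorem det_SL (γ : SL(2, ℤ)) : γ 0 0 * γ 1 1 - γ 0 1 * γ 1 0 = 1 := by
  have := γ.det_coe
  rwa [Matrix.det_fin_two] at this

theorem thetaSum_slash {D : ℤ} (hD : 0 < D) (w : ι → ℂ) (Qs : ι → BinForm)
    (hQ : ∀ i, (Qs i).D = D) (v : κ → ℂ) (Rs : κ → BinForm) (hR : ∀ j, (Rs j).D = D)
    {γ : SL(2, ℤ)} (hγ : γ ∈ CongruenceSubgroup.Gamma0 D.natAbs) :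
    (thetaSum w Qs * thetaSum v Rs) ∣[(2 : ℤ)] γ = thetaSum w Qs * thetaSum v Rs := by
  have hc : D ∣ γ 1 0 := by
    have h := CongruenceSubgroup.Gamma0_mem.1 hγ
    rw [ZMod.intCast_zmod_eq_zero_iff_dvd] at h
    exact Int.natAbs_dvd.1 h
  obtain ⟨ε, hε, h⟩ := exists_sign (ι := ι ⊕ κ) (Sum.elim Qs Rs)
    (by rintro (i | j) <;> simp [hQ, hR]) hD (det_SL γ) hc
  have hε2 : (ε : ℂ) * ε = 1 := by rcases hε with rfl | rfl <;> simp
  funext z
  have hz0 : (γ 1 0 : ℂ) * z + γ 1 1 ≠ 0 := by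
    rw [← ModularGroup.denom_apply]; exact denom_ne_zero _ z
  rw [show (2 : ℤ) = 1 + 1 from rfl, ModularForm.mul_slash_SL2, Pi.mul_apply, Pi.mul_apply,
    slash_one_apply, slash_one_apply]
  have h1 : thetaSum w Qs (γ • z) = ε * ((γ 1 0 : ℂ) * z + γ 1 1) * thetaSum w Qs z := by
    simp only [thetaSum, coe_smul_SL, Finset.mul_sum]
    refine Finset.sum_congr rfl fun i _ => ?_
    have := h (Sum.inl i) z z.im_pos
    simp only [Sum.elim_inl] at this
    rw [this]; ring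
  have h2 : thetaSum v Rs (γ • z) = ε * ((γ 1 0 : ℂ) * z + γ 1 1) * thetaSum v Rs z := by
    simp only [thetaSum, coe_smul_SL, Finset.mul_sum]
    refine Finset.sum_congr rfl fun i _ => ?_
    have := h (Sum.inr i) z z.im_pos
    simp only [Sum.elim_inr] at this
    rw [this]; ring
  rw [h1, h2]
  field_simp
  linear_combination (thetaSum w Qs z * thetaSum v Rs z) * hε2

/-- The value of `θ_Q` at the cusp attached to `(a, c)`, `c > 0`. -/
def cuspConst (Q : BinForm) (c : ℕ) [NeZero c] (a : ℤ) : ℂ :=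
  -Complex.I * Q.gauss c a 0 / (c * Real.sqrt Q.D)

theorem tendsto_slash_pos (Q : BinForm) (γ : SL(2, ℤ)) (c : ℕ) [NeZero c] (hc : γ 1 0 = c) :
    Tendsto ((fun z : ℍ => Q.theta z) ∣[(1 : ℤ)] γ) atImInfty
      (𝓝 (cuspConst Q c (γ 0 0))) := by
  set a := γ 0 0
  set d := γ 1 1
  have hdet : a * d - γ 0 1 * c = 1 := hc ▸ det_SL γ
  have hcR : (0 : ℝ) < c := by exact_mod_cast Nat.pos_of_ne_zero (NeZero.ne c)
  have hDR : (0 : ℝ) < Q.D := by exact_mod_cast Q.D_pos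
  have hcC : (c : ℂ) ≠ 0 := Nat.cast_ne_zero.2 (NeZero.ne c)
  have hDC : (Q.D : ℂ) ≠ 0 := by exact_mod_cast Q.D_pos.ne'
  have hev : ((fun z : ℍ => Q.theta z) ∣[(1 : ℤ)] γ) =ᶠ[atImInfty] fun z : ℍ =>
      -Complex.I / (c * Real.sqrt Q.D) * ∑' m : ℤ × ℤ, Q.gauss c a m *
        cexp (2 * π * Complex.I * ((c * z + d) / (c * Q.D)) * Q.adj.ev (m.1 : ℂ) (m.2 : ℂ)) := by
    refine Eventually.of_forall fun z => ?_
    have hz0 : (c : ℂ) * z + d ≠ 0 := by
      have := denom_ne_zero (γ : GL (Fin 2) ℝ) z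
      rw [ModularGroup.denom_apply, hc, Int.cast_natCast] at this
      exact this
    rw [slash_one_apply, coe_smul_SL, hc, Int.cast_natCast, show γ 1 1 = d from rfl,
      Q.theta_moebius c hdet z.im_pos]
    field_simp
  refine Tendsto.congr' hev.symm ?_
  rw [show cuspConst Q c a = -Complex.I / (c * Real.sqrt Q.D) * ∑' m : ℤ × ℤ,
    (if m = 0 then Q.gauss c a 0 else 0) by rw [tsum_ite_eq, cuspConst]; ring]
  refine Tendsto.const_mul _ ?_
  have him : ∀ z : ℍ, (((c : ℂ) * z + d) / (c * Q.D)).im = z.im / Q.D := by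
    intro z
    rw [show (c : ℂ) * Q.D = (((c : ℝ) * Q.D : ℝ) : ℂ) by push_cast; rfl, Complex.div_ofReal_im]
    simp only [add_im, mul_im, natCast_re, natCast_im, zero_mul, add_zero, intCast_im]
    rw [mul_div_mul_left _ _ hcR.ne']
    rfl
  have hnorm : ∀ (z : ℍ) (m : ℤ × ℤ),
      ‖cexp (2 * π * Complex.I * (((c : ℂ) * z + d) / (c * Q.D)) * Q.adj.ev (m.1 : ℂ) (m.2 : ℂ))‖
        = rexp (-2 * π * (z.im / Q.D) * Q.adj.ev (m.1 : ℝ) (m.2 : ℝ)) := by
    intro z m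
    rw [← him, ← norm_cexp_two_pi_I_mul_real, BinForm.ev_ofReal]
    simp
  refine tendsto_tsum_of_dominated_convergence
    (bound := fun m => (c : ℝ) * c * rexp (-2 * π * (1 / Q.D) * Q.adj.ev (m.1 : ℝ) (m.2 : ℝ)))
    ?_ (fun m => ?_) ?_
  · refine Summable.mul_left _ ((Q.adj.summable_exp_ev 0 0 (t := 1 / (Q.D : ℝ)) (by positivity)).congr
      fun m => ?_)
    simp
  · rcases eq_or_ne m 0 with rfl | hm
    · simp [BinForm.ev]
    · rw [if_neg hm]
      refine squeeze_zero_norm (a := fun z : ℍ => (c : ℝ) * c *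
        rexp (-(2 * π * (Q.adj.ev (m.1 : ℝ) (m.2 : ℝ)) / Q.D) * z.im)) (fun z => ?_) ?_
      · rw [norm_mul, hnorm]
        refine mul_le_mul (Q.norm_gauss_le c a m) (le_of_eq (by ring_nf)) (Real.exp_pos _).le
          (by positivity)
      · rw [show (0 : ℝ) = (c : ℝ) * c * 0 by ring]
        refine Tendsto.const_mul _ ?_
        have hpos : 0 < 2 * π * Q.adj.ev (m.1 : ℝ) (m.2 : ℝ) / Q.D := by
          have h := Q.adj.lowerConst_mul_le (m.1 : ℝ) (m.2 : ℝ)
          have hl := Q.adj.lowerConst_pos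
          have hsq : (0 : ℝ) < (m.1 : ℝ) ^ 2 + (m.2 : ℝ) ^ 2 := by
            by_contra hne
            have h1 : (m.1 : ℝ) = 0 := by nlinarith [sq_nonneg (m.1 : ℝ), sq_nonneg (m.2 : ℝ)]
            have h2 : (m.2 : ℝ) = 0 := by nlinarith [sq_nonneg (m.1 : ℝ), sq_nonneg (m.2 : ℝ)]
            exact hm (Prod.ext (by exact_mod_cast h1) (by exact_mod_cast h2))
          have : 0 < Q.adj.ev (m.1 : ℝ) (m.2 : ℝ) := lt_of_lt_of_le (mul_pos hl hsq) h
          positivity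
        exact Real.tendsto_exp_atBot.comp
          ((tendsto_comap : Tendsto UpperHalfPlane.im atImInfty atTop).const_mul_atTop_of_neg
            (neg_neg_of_pos hpos))
  · have : ∀ᶠ z : ℍ in atImInfty, 1 ≤ z.im :=
      (tendsto_comap : Tendsto UpperHalfPlane.im atImInfty atTop).eventually_ge_atTop 1
    filter_upwards [this] with z hz m
    rw [norm_mul, hnorm]
    refine mul_le_mul (Q.norm_gauss_le c a m) (Real.exp_le_exp.2 ?_) (Real.exp_pos _).le
      (by positivity)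
    have h1 : (1 : ℝ) / Q.D ≤ z.im / Q.D := by gcongr
    nlinarith [mul_nonneg (mul_nonneg Real.pi_pos.le (Q.adj.ev_real_nonneg (m.1 : ℝ) (m.2 : ℝ)))
      (sub_nonneg.2 h1)]

/-- Weights whose combination of cusp values vanishes at every cusp. -/
def CuspidalWeights (w : ι → ℂ) (Qs : ι → BinForm) : Prop :=
  ∀ (c : ℕ) [NeZero c] (a : ℤ), ∑ i, w i * (Qs i).gauss c a 0 = 0

theorem slash_neg_one (f : ℍ → ℂ) (γ : SL(2, ℤ)) :
    f ∣[(1 : ℤ)] (-γ) = -(f ∣[(1 : ℤ)] γ) := by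
  funext z
  rw [Pi.neg_apply, slash_one_apply, slash_one_apply, ModularGroup.SL_neg_smul,
    Matrix.SpecialLinearGroup.coe_neg]
  simp only [Matrix.neg_apply, Int.cast_neg]
  rw [show -((γ 1 0 : ℤ) : ℂ) * z + -((γ 1 1 : ℤ) : ℂ) = -((γ 1 0 : ℂ) * z + γ 1 1) by ring,
    div_neg]

theorem tendsto_theta_atImInfty (Q : BinForm) :
    Tendsto (fun z : ℍ => Q.theta z) atImInfty (𝓝 1) := by
  rw [show (1 : ℂ) = ∑' m : ℤ × ℤ, (if m = 0 then (1 : ℂ) else 0) by rw [tsum_ite_eq]]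
  refine tendsto_tsum_of_dominated_convergence
    (bound := fun m => rexp (-2 * π * 1 * Q.ev (m.1 : ℝ) (m.2 : ℝ))) ?_ (fun m => ?_) ?_
  · exact (Q.summable_exp_ev 0 0 one_pos).congr fun m => by simp
  · rcases eq_or_ne m 0 with rfl | hm
    · simp [BinForm.ev]
    · rw [if_neg hm]
      refine squeeze_zero_norm (a := fun z : ℍ =>
        rexp (-(2 * π * (Q.ev (m.1 : ℝ) (m.2 : ℝ))) * z.im)) (fun z => le_of_eq ?_) ?_
      · rw [show Q.ev (m.1 : ℂ) (m.2 : ℂ) = ((Q.ev (m.1 : ℝ) (m.2 : ℝ) : ℝ) : ℂ) by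
          simp [BinForm.ev_ofReal], norm_cexp_two_pi_I_mul_real]
        congr 1
        show -2 * π * z.im * _ = _
        ring
      · have hsq : (0 : ℝ) < (m.1 : ℝ) ^ 2 + (m.2 : ℝ) ^ 2 := by
          by_contra hne
          have h1 : (m.1 : ℝ) = 0 := by nlinarith [sq_nonneg (m.1 : ℝ), sq_nonneg (m.2 : ℝ)]
          have h2 : (m.2 : ℝ) = 0 := by nlinarith [sq_nonneg (m.1 : ℝ), sq_nonneg (m.2 : ℝ)]
          exact hm (Prod.ext (by exact_mod_cast h1) (by exact_mod_cast h2))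
        have hev : 0 < Q.ev (m.1 : ℝ) (m.2 : ℝ) :=
          lt_of_lt_of_le (mul_pos Q.lowerConst_pos hsq) (Q.lowerConst_mul_le _ _)
        exact Real.tendsto_exp_atBot.comp
          ((tendsto_comap : Tendsto UpperHalfPlane.im atImInfty atTop).const_mul_atTop_of_neg
            (neg_neg_of_pos (by positivity)))
  · have : ∀ᶠ z : ℍ in atImInfty, 1 ≤ z.im :=
      (tendsto_comap : Tendsto UpperHalfPlane.im atImInfty atTop).eventually_ge_atTop 1
    filter_upwards [this] with z hz m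
    refine le_trans (le_of_eq ?_) (le_trans (Q.norm_thetaTerm_le 0 0 (t := 1) hz m) (le_of_eq ?_))
    · simp [BinForm.thetaTerm]
    · simp

/-- Each theta series has a limit at each cusp, given by the Gauss sums. -/
theorem exists_limit (γ : SL(2, ℤ)) :
    ∃ (s : ℂ) (c : ℕ) (_ : NeZero c) (a : ℤ) (K : BinForm → ℂ),
      (∀ Q Q' : BinForm, Q.D = Q'.D → K Q = K Q') ∧ ∀ Q : BinForm,
      Tendsto ((fun z : ℍ => Q.theta z) ∣[(1 : ℤ)] γ) atImInfty
        (𝓝 (s * K Q * Q.gauss c a 0)) := by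
  rcases lt_trichotomy (γ 1 0) 0 with hneg | h0 | hpos
  · obtain ⟨c, hc⟩ : ∃ c : ℕ, (-γ) 1 0 = c := ⟨(γ 1 0).natAbs, by
      simp only [Matrix.SpecialLinearGroup.coe_neg, Matrix.neg_apply]; omega⟩
    have : NeZero c := ⟨by
      rintro rfl
      simp only [Matrix.SpecialLinearGroup.coe_neg, Matrix.neg_apply, Nat.cast_zero] at hc
      omega⟩
    refine ⟨-1, c, this, (-γ) 0 0, fun Q => -Complex.I / (c * Real.sqrt Q.D), fun Q Q' h => by simp only [h],
      fun Q => ?_⟩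
    have := (tendsto_slash_pos Q (-γ) c hc).neg
    rw [← Pi.neg_def, slash_neg_one, neg_neg] at this
    convert this using 2
    rw [cuspConst]; ring
  · refine ⟨(γ 1 1 : ℂ)⁻¹, 1, inferInstance, 0, fun _ => 1, fun _ _ _ => rfl, fun Q => ?_⟩
    rw [BinForm.gauss_one, mul_one, mul_one]
    have had : γ 0 0 * γ 1 1 = 1 := by have := det_SL γ; rw [h0] at this; linarith
    have hev : ((fun z : ℍ => Q.theta z) ∣[(1 : ℤ)] γ) =
        fun z : ℍ => (γ 1 1 : ℂ)⁻¹ * Q.theta z := by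
      funext z
      rw [slash_one_apply, coe_smul_SL, h0, Int.cast_zero, zero_mul, zero_add]
      have h11 : γ 0 0 = γ 1 1 ∧ (γ 1 1 = 1 ∨ γ 1 1 = -1) := by
        rcases Int.eq_one_or_neg_one_of_mul_eq_one had with h | h <;> rw [h] at had <;> omega
      rw [h11.1, div_eq_inv_mul]
      congr 1
      have : ((γ 1 1 : ℂ) * z + γ 0 1) / (γ 1 1 : ℂ)
          = z + ((γ 1 1 * γ 0 1 : ℤ) : ℂ) := by
        rcases h11.2 with h | h <;> rw [h] <;> push_cast <;> ring
      rw [this, BinForm.theta_add_intCast]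
    rw [hev]
    simpa using (tendsto_theta_atImInfty Q).const_mul (γ 1 1 : ℂ)⁻¹
  · obtain ⟨c, hc⟩ : ∃ c : ℕ, γ 1 0 = c := ⟨(γ 1 0).natAbs, by omega⟩
    have : NeZero c := ⟨by rintro rfl; simp [hc] at hpos⟩
    refine ⟨1, c, this, γ 0 0, fun Q => -Complex.I / (c * Real.sqrt Q.D), fun Q Q' h => by simp only [h],
      fun Q => ?_⟩
    convert tendsto_slash_pos Q γ c hc using 2
    rw [cuspConst]; ring

theorem tendsto_thetaSum_slash (γ : SL(2, ℤ)) {L : ι → ℂ} (Qs : ι → BinForm)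
    (h : ∀ i, Tendsto ((fun z : ℍ => (Qs i).theta z) ∣[(1 : ℤ)] γ) atImInfty (𝓝 (L i)))
    (w : ι → ℂ) :
    Tendsto (thetaSum w Qs ∣[(1 : ℤ)] γ) atImInfty (𝓝 (∑ i, w i * L i)) := by
  have : thetaSum w Qs ∣[(1 : ℤ)] γ =
      fun z => ∑ i, w i * ((fun z : ℍ => (Qs i).theta z) ∣[(1 : ℤ)] γ) z := by
    funext z
    simp only [slash_one_apply, thetaSum, Finset.sum_div, mul_div_assoc]
  rw [this]
  exact tendsto_finsetSum _ fun i _ => (h i).const_mul _

theorem isZeroAtImInfty_thetaSum_slash {D : ℤ} (w : ι → ℂ) (Qs : ι → BinForm)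
    (hQ : ∀ i, (Qs i).D = D) (hw : CuspidalWeights w Qs) (γ : SL(2, ℤ)) :
    IsZeroAtImInfty (thetaSum w Qs ∣[(1 : ℤ)] γ) := by
  obtain ⟨s, c, _, a, K, hK, h⟩ := exists_limit γ
  have h0 : ∑ i, w i * (s * K (Qs i) * (Qs i).gauss c a 0) = 0 := by
    rcases isEmpty_or_nonempty ι with he | ⟨⟨i₀⟩⟩
    · simp
    · rw [show ∑ i, w i * (s * K (Qs i) * (Qs i).gauss c a 0)
          = s * K (Qs i₀) * ∑ i, w i * (Qs i).gauss c a 0 by
        rw [Finset.mul_sum]
        refine Finset.sum_congr rfl fun i _ => ?_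
        rw [hK (Qs i) (Qs i₀) ((hQ i).trans (hQ i₀).symm)]; ring, hw c a, mul_zero]
  have := tendsto_thetaSum_slash γ Qs (fun i => h (Qs i)) w
  rwa [h0] at this

/-- The cusp form `θ_w θ_v` of weight two on `Γ₀(D)`, for cuspidal weights `w`. -/
def thetaCusp (N : ℕ) (w : ι → ℂ) (Qs : ι → BinForm) (v : κ → ℂ) (Rs : κ → BinForm)
    (hN : N ≠ 0) (hQ : ∀ i, (Qs i).D = N) (hR : ∀ j, (Rs j).D = N)
    (hw : CuspidalWeights w Qs) :
    CuspForm (CongruenceSubgroup.Gamma0 N) 2 where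
  toFun := thetaSum w Qs * thetaSum v Rs
  slash_action_eq' A hA := by
    obtain ⟨γ, hγ, rfl⟩ := Subgroup.mem_map.1 hA
    have := thetaSum_slash (D := N) (by omega) w Qs hQ v Rs hR (γ := γ) (by simpa using hγ)
    rwa [ModularForm.SL_slash] at this
  holo' := (mdifferentiable_thetaSum w Qs).mul (mdifferentiable_thetaSum v Rs)
  zero_at_cusps' {c} hc := by
    have : NeZero N := ⟨hN⟩
    rw [Subgroup.IsArithmetic.isCusp_iff_isCusp_SL2Z] at hc
    rw [OnePoint.isZeroAt_iff_forall_SL2Z hc]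
    intro γ _
    rw [show (2 : ℤ) = 1 + 1 from rfl, ModularForm.mul_slash_SL2]
    obtain ⟨s, c, _, a, K, -, h⟩ := exists_limit γ
    have h1 : Tendsto (thetaSum w Qs ∣[(1 : ℤ)] γ) atImInfty (𝓝 0) :=
      isZeroAtImInfty_thetaSum_slash w Qs hQ hw γ
    have h2 := h1.mul (tendsto_thetaSum_slash γ Rs (fun i => h (Rs i)) v)
    rw [zero_mul] at h2
    exact h2

theorem coe_thetaCusp (N : ℕ) (w : ι → ℂ) (Qs : ι → BinForm) (v : κ → ℂ) (Rs : κ → BinForm)
    (hN : N ≠ 0) (hQ : ∀ i, (Qs i).D = N) (hR : ∀ j, (Rs j).D = N) (hw : CuspidalWeights w Qs) :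
    ⇑(thetaCusp N w Qs v Rs hN hQ hR hw) = thetaSum w Qs * thetaSum v Rs := rfl

end Fermat.Agent.Dihedral
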