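import Fermat.Agent.Dihedral.Coeff
import Fermat.Agent.Dihedral.ThetaForm

/-!
# Weights of the ideal class theta series

The dihedral theta series as a combination of the theta series of the ideal classes: the weights
are cuspidal because the Gauss sums only depend on the genus.
-/

noncomputable section

namespace Fermat.Agent.Dihedral

open NumberField
open scoped nonZeroDivisors

variable {K : Type*} [Field K] [NumberField K] [IsImagQuadratic K]

/-- Multiplying an ideal by a principal ideal does not change the Gauss sums of its norm form. -/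
theorem gauss_span_mul (X I : (Ideal (𝓞 K))⁰) (x : 𝓞 K)
    (hX : (X : Ideal (𝓞 K)) = Ideal.span {x}) (c : ℕ) [NeZero c] (a : ℤ) :
    (normForm (X * I)).gauss c a 0 = (normForm I).gauss c a 0 := by
  have hx : x ≠ 0 := by
    rintro rfl
    exact nonZeroDivisors.coe_ne_zero X (by rw [hX]; simp)
  have hmem : ∀ m, x * lat I m ∈ ((X * I : (Ideal (𝓞 K))⁰) : Ideal (𝓞 K)) := fun m => by
    rw [Submonoid.coe_mul, hX]
    exact Ideal.mul_mem_mul (Ideal.mem_span_singleton_self x) (lat_mem I m)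
  let φ : ℤ × ℤ → ℤ × ℤ := fun m => (latEquiv (X * I)).symm ⟨x * lat I m, hmem m⟩
  have hφ : ∀ m, lat (X * I) (φ m) = x * lat I m := fun m => by
    rw [← latEquiv_apply, Equiv.apply_symm_apply]
  have hlin : ∀ m : ℤ × ℤ, φ m = m.1 • φ (1, 0) + m.2 • φ (0, 1) := fun m => by
    apply (latEquiv (X * I)).injective
    apply Subtype.ext
    have hl : ∀ (i j : ℤ) (p q : ℤ × ℤ),
        lat (X * I) (i • p + j • q) = i • lat (X * I) p + j • lat (X * I) q := by
      intro i j p q
      simp [lat, zsmul_eq_mul]; ring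
    rw [latEquiv_apply, latEquiv_apply, hφ, hl, hφ, hφ]
    simp [lat, zsmul_eq_mul]; ring
  have hNI : (Ideal.absNorm ((X * I : (Ideal (𝓞 K))⁰) : Ideal (𝓞 K)) : ℤ) ≠ 0 := by
    exact_mod_cast (absNorm_pos (X * I)).ne'
  have hev : ∀ m : ℤ × ℤ,
      (normForm (X * I)).ev (φ m).1 (φ m).2 = (normForm I).ev m.1 m.2 := fun m => by
    apply mul_left_cancel₀ hNI
    rw [absNorm_mul_ev, hφ, map_mul, ← absNorm_mul_ev, Submonoid.coe_mul, map_mul, hX]
    push_cast
    rw [absNorm_span_eq]; ring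
  have hsurj : ∀ k : ℤ × ℤ, ∃ m, φ m = k := by
    intro k
    have hk := lat_mem (X * I) k
    rw [Submonoid.coe_mul, hX, Ideal.mem_span_singleton_mul] at hk
    obtain ⟨z, hz, hzk⟩ := hk
    refine ⟨(latEquiv I).symm ⟨z, hz⟩, (latEquiv (X * I)).injective (Subtype.ext ?_)⟩
    rw [latEquiv_apply, latEquiv_apply, hφ, ← latEquiv_apply, Equiv.apply_symm_apply]
    exact hzk
  let Φ : ZMod c × ZMod c → ZMod c × ZMod c := fun g =>
    (g.1 * ((φ (1, 0)).1 : ZMod c) + g.2 * ((φ (0, 1)).1 : ZMod c),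
     g.1 * ((φ (1, 0)).2 : ZMod c) + g.2 * ((φ (0, 1)).2 : ZMod c))
  have hΦ : ∀ m : ℤ × ℤ, Φ ((m.1 : ZMod c), (m.2 : ZMod c))
      = (((φ m).1 : ZMod c), ((φ m).2 : ZMod c)) := fun m => by
    rw [hlin m]; simp [Φ]
  have hΦsurj : Function.Surjective Φ := by
    intro g
    obtain ⟨m, hm⟩ := hsurj ((g.1.val : ℤ), (g.2.val : ℤ))
    exact ⟨((m.1 : ZMod c), (m.2 : ZMod c)), by rw [hΦ, hm]; simp⟩
  have hΦbij : Function.Bijective Φ := ⟨Finite.injective_iff_surjective.2 hΦsurj, hΦsurj⟩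
  have hev' : ∀ g : ZMod c × ZMod c,
      (normForm (X * I)).ev (Φ g).1 (Φ g).2 = (normForm I).ev g.1 g.2 := by
    intro g
    have h := congrArg (fun z : ℤ => (z : ZMod c)) (hev ((g.1.val : ℤ), (g.2.val : ℤ)))
    simp only [BinForm.ev_intCast] at h
    have h' := hΦ ((g.1.val : ℤ), (g.2.val : ℤ))
    simp only [Int.cast_natCast, ZMod.natCast_zmod_val, Prod.mk.eta] at h h'
    rw [h']; exact h
  rw [BinForm.gauss, BinForm.gauss, ← (Equiv.ofBijective Φ hΦbij).sum_comp]
  refine Finset.sum_congr rfl fun g _ => ?_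
  simp [hev']

/-- The Gauss sums of the norm form only depend on the ideal class. -/
theorem gauss_eq_of_mk0_eq {I J : (Ideal (𝓞 K))⁰} (h : ClassGroup.mk0 I = ClassGroup.mk0 J)
    (c : ℕ) [NeZero c] (a : ℤ) : (normForm I).gauss c a 0 = (normForm J).gauss c a 0 := by
  obtain ⟨x, y, hx, hy, hxy⟩ := ClassGroup.mk0_eq_mk0_iff.1 h
  have hmem : ∀ {z : 𝓞 K}, z ≠ 0 → Ideal.span {z} ∈ (Ideal (𝓞 K))⁰ := fun hz =>
    mem_nonZeroDivisors_iff_ne_zero.2 (by simpa using hz)
  let X : (Ideal (𝓞 K))⁰ := ⟨Ideal.span {x}, hmem hx⟩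
  let Y : (Ideal (𝓞 K))⁰ := ⟨Ideal.span {y}, hmem hy⟩
  have hXY : X * I = Y * J := Subtype.ext hxy
  rw [← gauss_span_mul X I x rfl, hXY, gauss_span_mul Y J y rfl]

variable (χ : ClassGroup (𝓞 K) →* Multiplicative (ZMod 3))

omit [IsImagQuadratic K] in
/-- A chosen ideal in the class `C⁻¹`. -/
theorem exists_repIdeal (C : ClassGroup (𝓞 K)) :
    ∃ I : (Ideal (𝓞 K))⁰, ClassGroup.mk0 I = C⁻¹ := ClassGroup.mk0_surjective C⁻¹

/-- A chosen ideal in the class `C⁻¹`. -/
def repIdeal (C : ClassGroup (𝓞 K)) : (Ideal (𝓞 K))⁰ := (exists_repIdeal C).choose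

omit [IsImagQuadratic K] in
theorem mk0_repIdeal (C : ClassGroup (𝓞 K)) : ClassGroup.mk0 (repIdeal C) = C⁻¹ :=
  (exists_repIdeal C).choose_spec

/-- The forms of the ideal classes. -/
def classForm (C : ClassGroup (𝓞 K)) : BinForm := normForm (repIdeal C)

/-- The weights of the dihedral theta series. -/
def classWeight (C : ClassGroup (𝓞 K)) : ℂ := chiC χ C / unitCount K

theorem classForm_D (C : ClassGroup (𝓞 K)) : (classForm C).D = ((discr K).natAbs : ℤ) :=
  normForm_D _

/-- A nontrivial class character gives cuspidal weights. -/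
theorem cuspidalWeights (hχ : χ ≠ 1) : CuspidalWeights (classWeight χ) (classForm (K := K)) := by
  intro c _ a
  obtain ⟨B0, hB0⟩ : ∃ B0, χ B0 ≠ 1 := by
    by_contra h
    push Not at h
    exact hχ (MonoidHom.ext h)
  obtain ⟨B, hB, hco⟩ := exists_coprime_rep B0 (NeZero.ne c)
  have hG : ∀ C, (classForm (C * (B0 * B0))).gauss c a 0 = (classForm C).gauss c a 0 := by
    intro C
    rw [classForm, classForm, ← gauss_normForm_mul_sq _ B c a hco]
    refine gauss_eq_of_mk0_eq ?_ c a
    rw [map_mul, map_mul, hB, mk0_repIdeal, mk0_repIdeal]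
    simp [mul_inv_rev, mul_comm, mul_left_comm]
  have hne : chiC χ (B0 * B0) ≠ 1 := fun h => hB0 <| (chiC_eq_one_iff χ B0).1 <| by
    rw [map_mul] at h
    linear_combination chiC_cube χ B0 - chiC χ B0 * h
  set S := ∑ C, classWeight χ C * (classForm C).gauss c a 0 with hS
  have h : chiC χ (B0 * B0) * S = S := by
    rw [hS, Finset.mul_sum]
    refine Fintype.sum_equiv (Equiv.mulRight (B0 * B0)) _ _ fun C => ?_
    simp only [Equiv.coe_mulRight, hG, classWeight, map_mul]
    ring
  have h' : (chiC χ (B0 * B0) - 1) * S = 0 := by linear_combination h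
  exact (mul_eq_zero.1 h').resolve_left (sub_ne_zero.2 hne)

theorem sum_classWeight (hχ : χ ≠ 1) : ∑ C, classWeight χ C = 0 := by
  simpa [BinForm.gauss_one] using cuspidalWeights χ hχ 1 0

/-- The weighted representation numbers of the class forms are the coefficients `b(n)`. -/
theorem sum_classWeight_rep (hχ : χ ≠ 1) (n : ℕ) :
    ∑ C, classWeight χ C * ((classForm C).rep n : ℂ) = bsum χ n := by
  classical
  rcases eq_or_ne n 0 with rfl | hn
  · simp [BinForm.rep_zero, bsum_zero, sum_classWeight χ hχ]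
  rw [bsum_of_ne_zero χ hn, ← Finset.sum_fiberwise (normSet n) classOf]
  refine Finset.sum_congr rfl fun C _ => ?_
  rw [classForm, rep_normForm _ hn, mk0_repIdeal, inv_inv,
    Finset.sum_congr rfl fun b hb => by rw [(Finset.mem_filter.1 hb).2], Finset.sum_const,
    nsmul_eq_mul]
  have hcard : Nat.card (IdealsIn n C) = ((normSet n).filter fun b => classOf b = C).card := by
    apply Nat.subtype_card
    simp [mem_normSet]
  rw [hcard, classWeight]
  have hu : (unitCount K : ℂ) ≠ 0 := Nat.cast_ne_zero.2 unitCount_pos.ne'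
  push_cast
  field_simp

end Fermat.Agent.Dihedral
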