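import Fermat.Agent.Dihedral.TraceTwo
import Fermat.Agent.Dihedral.Weights
import Fermat.Agent.HeckeEigen.CongruenceLift

/-!
# The mod 2 dihedral eigenform

The mod `2` eigenform of weight `2` attached to a cubic class character, and its Deligne–Serre
lift.
-/

noncomputable section

namespace Fermat.Agent.Dihedral

open NumberField Fermat.Agent.HeckeEigen CongruenceSubgroup UpperHalfPlane
open scoped nonZeroDivisors

local notation "𝕢" => Function.Periodic.qParam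

section qCoeff

variable {ι κ : Type*} [Fintype ι] [Fintype κ]

/-- The coefficients of a combination of theta series. -/
def thetaCoeff (w : ι → ℂ) (Qs : ι → BinForm) (n : ℕ) : ℂ := ∑ i, w i * ((Qs i).rep n : ℂ)

theorem hasSum_thetaSum (w : ι → ℂ) (Qs : ι → BinForm) (z : ℍ) :
    HasSum (fun n => thetaCoeff w Qs n * 𝕢 1 (z : ℂ) ^ n) (thetaSum w Qs z) := by
  simp only [thetaCoeff, Finset.sum_mul, thetaSum, mul_assoc]
  exact hasSum_sum fun i _ => ((Qs i).hasSum_theta z.im_pos).mul_left (w i)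

theorem hasSum_thetaSum_mul (w : ι → ℂ) (Qs : ι → BinForm) (v : κ → ℂ) (Rs : κ → BinForm) (z : ℍ) :
    HasSum (fun n => (∑ ij ∈ Finset.HasAntidiagonal.antidiagonal n, thetaCoeff w Qs ij.1 * thetaCoeff v Rs ij.2) *
      𝕢 1 (z : ℂ) ^ n) (thetaSum w Qs z * thetaSum v Rs z) := by
  have hf := hasSum_thetaSum w Qs z
  have hg := hasSum_thetaSum v Rs z
  have hf' := summable_norm_iff.2 hf.summable
  have hg' := summable_norm_iff.2 hg.summable
  have hterm : ∀ n : ℕ, (∑ ij ∈ Finset.HasAntidiagonal.antidiagonal n,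
      (thetaCoeff w Qs ij.1 * 𝕢 1 (z : ℂ) ^ ij.1) * (thetaCoeff v Rs ij.2 * 𝕢 1 (z : ℂ) ^ ij.2)) =
      (∑ ij ∈ Finset.HasAntidiagonal.antidiagonal n, thetaCoeff w Qs ij.1 * thetaCoeff v Rs ij.2) *
        𝕢 1 (z : ℂ) ^ n := fun n => by
    rw [Finset.sum_mul]
    refine Finset.sum_congr rfl fun ij h => ?_
    rw [← Finset.HasAntidiagonal.mem_antidiagonal.1 h, pow_add]; ring
  have hs := (summable_norm_sum_mul_antidiagonal_of_summable_norm hf' hg').of_norm.hasSum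
  rw [← tsum_mul_tsum_eq_tsum_sum_antidiagonal_of_summable_norm hf' hg', hf.tsum_eq,
    hg.tsum_eq] at hs
  simpa only [hterm] using hs

/-- The `q`-expansion of a product of two combinations of theta series is a convolution. -/
theorem qCoeff_thetaCusp (N : ℕ) (w : ι → ℂ) (Qs : ι → BinForm) (v : κ → ℂ) (Rs : κ → BinForm)
    (hN : N ≠ 0) (hQ : ∀ i, (Qs i).D = N) (hR : ∀ j, (Rs j).D = N) (hw : CuspidalWeights w Qs)
    (n : ℕ) : ModularFormClass.qCoeff (thetaCusp N w Qs v Rs hN hQ hR hw) n =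
      ∑ ij ∈ Finset.HasAntidiagonal.antidiagonal n, thetaCoeff w Qs ij.1 * thetaCoeff v Rs ij.2 :=
  (ModularFormClass.qExpansion_coeff_unique one_pos (one_mem_strictPeriods_Gamma0 N)
    (c := fun n => ∑ ij ∈ Finset.HasAntidiagonal.antidiagonal n,
      thetaCoeff w Qs ij.1 * thetaCoeff v Rs ij.2)
    (f := thetaCusp N w Qs v Rs hN hQ hR hw)
    (fun z => by
      simpa [coe_thetaCusp, smul_eq_mul] using hasSum_thetaSum_mul w Qs v Rs z) n).symm

end qCoeff

theorem sum_antidiagonal_self_zmod_two (g : ℕ → ZMod 2) (n : ℕ) :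
    ∑ ij ∈ Finset.HasAntidiagonal.antidiagonal n, g ij.1 * g ij.2 = if 2 ∣ n then g (n / 2) else 0 := by
  rw [← Finset.sum_filter_add_sum_filter_not (Finset.HasAntidiagonal.antidiagonal n) (fun ij => ij.1 = ij.2)]
  have h0 : ∑ ij ∈ (Finset.HasAntidiagonal.antidiagonal n).filter (fun ij => ¬ ij.1 = ij.2),
      g ij.1 * g ij.2 = 0 := by
    refine Finset.sum_involution (fun a _ => a.swap) (fun a _ => ?_) (fun a ha _ h => ?_)
      (fun a ha => ?_) (fun a _ => a.swap_swap)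
    · rw [Prod.fst_swap, Prod.snd_swap, mul_comm (g a.2)]; exact CharTwo.add_self_eq_zero _
    · exact (Finset.mem_filter.1 ha).2 (congrArg Prod.snd h)
    · simp only [Finset.mem_filter, Finset.HasAntidiagonal.mem_antidiagonal, Prod.fst_swap, Prod.snd_swap] at ha ⊢
      omega
  rw [h0, add_zero]
  split_ifs with h
  · have : (Finset.HasAntidiagonal.antidiagonal n).filter (fun ij => ij.1 = ij.2) = {(n / 2, n / 2)} := by
      ext ⟨i, j⟩
      simp only [Finset.mem_filter, Finset.HasAntidiagonal.mem_antidiagonal, Finset.mem_singleton, Prod.mk.injEq]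
      omega
    rw [this, Finset.sum_singleton]
    exact (show ∀ x : ZMod 2, x * x = x by decide) _
  · refine Finset.sum_eq_zero fun ij hij => ?_
    simp only [Finset.mem_filter, Finset.HasAntidiagonal.mem_antidiagonal] at hij
    omega

variable {K : Type} [Field K] [NumberField K] [IsImagQuadratic K]
variable (χ : ClassGroup (𝓞 K) →* Multiplicative (ZMod 3))

/-- The recursion of the residues of the coefficients at an odd prime. -/
theorem beta_mul {ℓ : ℕ} (hℓ : ℓ.Prime) (h2 : ℓ ≠ 2) (n : ℕ) :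
    (bInt χ (ℓ * n) : ZMod 2) = (traceTwo K χ ℓ : ZMod 2) * bInt χ n +
      (if (ℓ : ℤ) ∣ discr K then 0 else betaDiv χ ℓ n) := by
  rcases bsum_mul_cases χ hℓ with ⟨hd, h⟩ | ⟨hd, -, a, h, ha⟩ | ⟨hd, hno, h⟩
  · have h' := h n
    rw [bsum_eq_bInt, bsum_eq_bInt, Int.cast_inj] at h'
    simp [traceTwo, hd, h']
  · have h' := h n
    rw [bsum_eq_bInt, bsum_eq_bInt, bdiv_eq_int, ← Int.cast_mul, ← Int.cast_sub, Int.cast_inj]
      at h'
    have hat : (traceTwo K χ ℓ : ZMod 2) = (a : ZMod 2) := by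
      rcases ha with ⟨ha, hP⟩ | ⟨ha, hP⟩
      · rw [traceTwo, if_neg (not_or.2 ⟨h2, hd⟩), if_pos hP, ha, Int.cast_one]
      · rw [traceTwo, if_neg (not_or.2 ⟨h2, hd⟩), if_neg hP, ha, Int.cast_zero]
    rw [if_neg hd, hat, h', betaDiv, Int.cast_sub, Int.cast_mul, CharTwo.sub_eq_add]
    split <;> simp
  · have h' := h n
    rw [bsum_eq_bInt, bdiv_eq_int, Int.cast_inj] at h'
    rw [traceTwo, if_neg (not_or.2 ⟨h2, hd⟩),
      if_neg (fun ⟨P, hP, hN, _⟩ => hno ⟨P, hP, hN⟩), if_neg hd, h', betaDiv]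
    split <;> simp

/-- The residue of the `n`-th coefficient of the mod `2` eigenform. -/
def phiTwo (n : ℕ) : ZMod 2 := (bInt χ n : ZMod 2) + betaDiv χ 2 n

theorem phiTwo_one : phiTwo χ 1 = 1 := by simp [phiTwo, betaDiv, bInt_one]

/-- The Hecke recursion of the mod 2 coefficients at an odd prime. -/
theorem betaDiv_two_mul {ℓ : ℕ} (hℓ : ℓ.Prime) (h2 : ℓ ≠ 2) (n : ℕ) :
    betaDiv χ 2 (ℓ * n) = (traceTwo K χ ℓ : ZMod 2) * betaDiv χ 2 n +
      (if (ℓ : ℤ) ∣ discr K then 0 else if ℓ ∣ n then betaDiv χ 2 (n / ℓ) else 0) := by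
  have hco : Nat.Coprime ℓ 2 := (Nat.coprime_primes hℓ Nat.prime_two).2 h2
  by_cases hn : 2 ∣ n
  · obtain ⟨m, rfl⟩ := hn
    have hb : betaDiv χ 2 (2 * m) = bInt χ m := by
      rw [betaDiv, if_pos (Dvd.intro m rfl), Nat.mul_div_cancel_left m two_pos]
    have hl : betaDiv χ 2 (ℓ * (2 * m)) = bInt χ (ℓ * m) := by
      rw [mul_left_comm, betaDiv, if_pos (Dvd.intro _ rfl), Nat.mul_div_cancel_left _ two_pos]
    rw [hb, hl, beta_mul χ hℓ h2]
    congr 1
    by_cases hm : ℓ ∣ m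
    · obtain ⟨k, rfl⟩ := hm
      have e1 : 2 * (ℓ * k) / ℓ = 2 * k := by
        rw [mul_left_comm, Nat.mul_div_cancel_left _ hℓ.pos]
      have e2 : ℓ * k / ℓ = k := Nat.mul_div_cancel_left _ hℓ.pos
      simp only [betaDiv, e1, e2, dvd_mul_right, dvd_mul_of_dvd_right (dvd_mul_right ℓ k) 2,
        if_true, Nat.mul_div_cancel_left k two_pos]
    · have : ¬ ℓ ∣ 2 * m := fun h => hm (hco.dvd_of_dvd_mul_left h)
      simp [betaDiv, hm, this]
  · have hln : ¬ 2 ∣ ℓ * n := fun h => hn (hco.symm.dvd_of_dvd_mul_left h)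
    have hq : (if ℓ ∣ n then betaDiv χ 2 (n / ℓ) else 0) = 0 := by
      split_ifs with h
      · rw [betaDiv, if_neg fun h' => hn (h'.trans (Nat.div_dvd_of_dvd h))]
      · rfl
    rw [hq, betaDiv, betaDiv, if_neg hn, if_neg hln]
    simp

theorem phiTwo_mul {ℓ : ℕ} (hℓ : ℓ.Prime) (h2 : ℓ ≠ 2) (n : ℕ) :
    phiTwo χ (ℓ * n) = (traceTwo K χ ℓ : ZMod 2) * phiTwo χ n +
      (if (ℓ : ℤ) ∣ discr K then 0 else if ℓ ∣ n then phiTwo χ (n / ℓ) else 0) := by
  rw [phiTwo, phiTwo, beta_mul χ hℓ h2, betaDiv_two_mul χ hℓ h2]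
  by_cases hd : (ℓ : ℤ) ∣ discr K
  · simp only [if_pos hd]; ring
  · by_cases hn : ℓ ∣ n
    · simp only [if_neg hd, if_pos hn, phiTwo, betaDiv]; ring
    · simp only [if_neg hd, if_neg hn, betaDiv]; ring

theorem phiTwo_two_mul (hinert : (Ideal.span {(2 : 𝓞 K)}).IsPrime) (n : ℕ) :
    phiTwo χ (2 * n) = phiTwo χ n := by
  rw [phiTwo, phiTwo, (beta_two_mul χ hinert).2, add_comm (bInt χ n : ZMod 2)]
  simp [betaDiv]

omit [IsImagQuadratic K] in
variable (K) in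
theorem natAbs_discr_ne_zero : (discr K).natAbs ≠ 0 := Int.natAbs_ne_zero.2 (discr_ne_zero K)

/-- The norm form of the trivial class, as a one element family. -/
def unitForm : Unit → BinForm := fun _ => normForm (1 : (Ideal (𝓞 K))⁰)

theorem unitForm_D (u : Unit) : (unitForm (K := K) u).D = ((discr K).natAbs : ℤ) := normForm_D _

/-- `θ_χ θ₁ + θ_χ²`. -/
def dihedralForm (hχ : χ ≠ 1) : CuspForm (Gamma0 (discr K).natAbs) 2 :=
  thetaCusp _ (classWeight χ) (classForm (K := K)) (fun _ : Unit => 1) (unitForm (K := K))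
      (natAbs_discr_ne_zero K) classForm_D unitForm_D (cuspidalWeights χ hχ) +
    thetaCusp _ (classWeight χ) (classForm (K := K)) (classWeight χ) (classForm (K := K))
      (natAbs_discr_ne_zero K) classForm_D classForm_D (cuspidalWeights χ hχ)

/-- The integral coefficients of `dihedralForm`. -/
def formCoeff (n : ℕ) : ℤ :=
  (∑ ij ∈ Finset.HasAntidiagonal.antidiagonal n,
      bInt χ ij.1 * ((normForm (1 : (Ideal (𝓞 K))⁰)).rep ij.2 : ℤ)) +
    ∑ ij ∈ Finset.HasAntidiagonal.antidiagonal n, bInt χ ij.1 * bInt χ ij.2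

theorem qCoeff_dihedralForm (hχ : χ ≠ 1) (n : ℕ) :
    ModularFormClass.qCoeff (dihedralForm χ hχ) n = (formCoeff χ n : ℂ) := by
  rw [← qCoeffLin_apply, dihedralForm, map_add, qCoeffLin_apply, qCoeffLin_apply,
    qCoeff_thetaCusp, qCoeff_thetaCusp, formCoeff]
  simp only [thetaCoeff, sum_classWeight_rep χ hχ, bsum_eq_bInt, unitForm, Fintype.sum_unique,
    one_mul]
  push_cast
  rfl

theorem formCoeff_zmod_two (n : ℕ) : (formCoeff χ n : ZMod 2) = phiTwo χ n := by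
  rw [formCoeff, phiTwo, Int.cast_add, Int.cast_sum, Int.cast_sum]
  congr 1
  · rw [Finset.sum_eq_single (n, 0)]
    · simp [BinForm.rep_zero]
    · rintro ⟨i, j⟩ hij hne
      have hj : j ≠ 0 := by
        rintro rfl
        rw [Finset.HasAntidiagonal.mem_antidiagonal, add_zero] at hij
        exact hne (Prod.ext hij rfl)
      simp [BinForm.even_rep _ hj]
    · simp
  · simp only [Int.cast_mul]
    rw [sum_antidiagonal_self_zmod_two fun k => (bInt χ k : ZMod 2)]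
    rfl

theorem dihedralForm_mem_intLattice (hχ : χ ≠ 1) [NeZero (discr K).natAbs] :
    dihedralForm χ hχ ∈ CuspForm.intLattice (discr K).natAbs 2 :=
  mem_intLattice_iff.2 fun n => ⟨formCoeff χ n, qCoeff_dihedralForm χ hχ n⟩

omit [IsImagQuadratic K] in
theorem natCast_dvd_discr_iff (ℓ : ℕ) : ℓ ∣ (discr K).natAbs ↔ (ℓ : ℤ) ∣ discr K :=
  Int.natCast_dvd.symm

theorem isModEigen_dihedralForm (hinert : (Ideal.span {(2 : 𝓞 K)}).IsPrime) (hχ : χ ≠ 1)
    [NeZero (discr K).natAbs] :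
    (∀ (ℓ : ℕ) (hℓ : ℓ.Prime) (hℓN : ¬ ℓ ∣ (discr K).natAbs),
      IsModEigen 2 (dihedralForm χ hχ)
        (CuspForm.heckeAlgebra.T hℓ hℓN (Set.notMem_empty _)) (traceTwo K χ ℓ)) ∧
    ∀ (ℓ : ℕ) (hℓ : ℓ.Prime) (hℓN : ℓ ∣ (discr K).natAbs),
      IsModEigen 2 (dihedralForm χ hχ)
        (CuspForm.heckeAlgebra.U hℓ hℓN (Set.notMem_empty _)) (traceTwo K χ ℓ) := by
  constructor
  · intro ℓ hℓ hℓN
    have hd : ¬ (ℓ : ℤ) ∣ discr K := fun h => hℓN ((natCast_dvd_discr_iff ℓ).2 h)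
    refine isModEigen_of_dvd 2 _ _ fun n => ?_
    set z : ℤ := formCoeff χ (n * ℓ) + (if ℓ ∣ n then (ℓ : ℤ) * formCoeff χ (n / ℓ) else 0) -
      traceTwo K χ ℓ * formCoeff χ n with hz
    have hz2 : (2 : ℤ) ∣ z := by
      rw [show (2 : ℤ) = ((2 : ℕ) : ℤ) from rfl, ← ZMod.intCast_zmod_eq_zero_iff_dvd]
      rcases eq_or_ne ℓ 2 with rfl | h2
      · have h0 : (2 : ZMod 2) = 0 := rfl
        rw [hz, Int.cast_sub, Int.cast_add, Int.cast_mul, formCoeff_zmod_two, formCoeff_zmod_two,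
          mul_comm n 2, phiTwo_two_mul χ hinert, traceTwo_two]
        split_ifs <;> simp [Int.cast_mul, h0]
      · have h1 : ((ℓ : ℤ) : ZMod 2) = 1 := by
          rw [Int.cast_natCast, ZMod.natCast_eq_one_iff_odd]
          exact hℓ.odd_of_ne_two h2
        rw [hz, Int.cast_sub, Int.cast_add, Int.cast_mul, formCoeff_zmod_two, formCoeff_zmod_two,
          mul_comm n ℓ, phiTwo_mul χ hℓ h2, if_neg hd]
        split_ifs
        · rw [Int.cast_mul, h1, one_mul, formCoeff_zmod_two, add_assoc, CharTwo.add_self_eq_zero,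
            add_zero, sub_self]
        · simp
    obtain ⟨m, hm⟩ := hz2
    refine ⟨m, ?_⟩
    rw [CuspForm.heckeAlgebra.coe_T, qCoeff_heckeTLin, qCoeff_dihedralForm, qCoeff_dihedralForm,
      qCoeff_dihedralForm, show ((2 : ℕ) : ℂ) * (m : ℂ) = ((2 * m : ℤ) : ℂ) by push_cast; rfl,
      ← hm, hz]
    split_ifs <;> norm_num
  · intro ℓ hℓ hℓN
    have hd : (ℓ : ℤ) ∣ discr K := (natCast_dvd_discr_iff ℓ).1 hℓN
    have h2 : ℓ ≠ 2 := fun h => (beta_two_mul χ hinert).1 (by subst h; exact_mod_cast hd)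
    refine isModEigen_of_dvd 2 _ _ fun n => ?_
    set z : ℤ := formCoeff χ (n * ℓ) - traceTwo K χ ℓ * formCoeff χ n with hz
    have hz2 : (2 : ℤ) ∣ z := by
      rw [show (2 : ℤ) = ((2 : ℕ) : ℤ) from rfl, ← ZMod.intCast_zmod_eq_zero_iff_dvd]
      rw [hz, Int.cast_sub, Int.cast_mul, formCoeff_zmod_two, formCoeff_zmod_two,
        mul_comm n ℓ, phiTwo_mul χ hℓ h2, if_pos hd, add_zero, sub_self]
    obtain ⟨m, hm⟩ := hz2
    refine ⟨m, ?_⟩
    rw [CuspForm.heckeAlgebra.coe_U, qCoeff_heckeULin hℓ.ne_zero, qCoeff_dihedralForm,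
      qCoeff_dihedralForm, show ((2 : ℕ) : ℂ) * (m : ℂ) = ((2 * m : ℤ) : ℂ) by push_cast; rfl,
      ← hm, hz]
    push_cast
    rfl

/-- The dihedral eigenform, given an integral structure on `S₂(Γ₀(|d_K|))`. -/
theorem exists_dihedral_eigenform_of_integralStructure [NeZero (discr K).natAbs]
    (hS : CuspForm.HasIntegralStructure (discr K).natAbs 2)
    (hinert : (Ideal.span {(2 : 𝓞 K)}).IsPrime) (hχ : χ ≠ 1) :
    ∃ f : CuspForm (Gamma0 (discr K).natAbs) 2, f.IsNormalizedEigenform ∧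
      ∃ Q : Ideal (integralClosure ℤ ℂ), Q.IsMaximal ∧ (2 : integralClosure ℤ ℂ) ∈ Q ∧
        ∀ ℓ : ℕ, ℓ.Prime → ∃ a : integralClosure ℤ ℂ,
          (a : ℂ) = ModularFormClass.qCoeff f ℓ ∧
            a - ((traceTwo K χ ℓ : ℤ) : integralClosure ℤ ℂ) ∈ Q := by
  have : Fact (Nat.Prime 2) := ⟨Nat.prime_two⟩
  obtain ⟨hT, hU⟩ := isModEigen_dihedralForm χ hinert hχ
  obtain ⟨ψ, hψ⟩ := exists_modHom 2 (by norm_num : (1 : ℤ) ≤ 2)
    (dihedralForm_mem_intLattice χ hχ) (qCoeff_dihedralForm χ hχ 1)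
    (by rw [formCoeff_zmod_two, phiTwo_one])
    (exists_isModEigen_of_generators (by norm_num : (1 : ℤ) ≤ 2) 2
      (fun ℓ hℓ hℓN => ⟨_, hT ℓ hℓ hℓN⟩) (fun ℓ hℓ hℓN => ⟨_, hU ℓ hℓ hℓN⟩))
  obtain ⟨f, hf, φ', Q, hQ, h2Q, hφ', hcong⟩ := exists_eigenform_congruent hS 2 ψ
  refine ⟨f, hf, Q, hQ, by exact_mod_cast h2Q, fun ℓ hℓ => ?_⟩
  by_cases hℓN : ℓ ∣ (discr K).natAbs
  · exact ⟨φ' (CuspForm.heckeAlgebra.U hℓ hℓN (Set.notMem_empty _)),
      by rw [hφ', eigenHom_U], hcong _ _ (hψ _ _ (hU ℓ hℓ hℓN))⟩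
  · exact ⟨φ' (CuspForm.heckeAlgebra.T hℓ hℓN (Set.notMem_empty _)),
      by rw [hφ', eigenHom_T], hcong _ _ (hψ _ _ (hT ℓ hℓ hℓN))⟩

end Fermat.Agent.Dihedral
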