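import Fermat.Agent.Dihedral.Inversion

/-!
# Representation numbers of binary forms

Representation numbers of binary forms and the `q`-expansion of their theta series.
-/

noncomputable section

namespace Fermat.Agent.Dihedral.BinForm

open Complex Real

local notation "𝕢" => Function.Periodic.qParam

variable (Q : BinForm)

theorem ev_nonneg (x y : ℤ) : 0 ≤ Q.ev x y := by
  have h := Q.ev_real_nonneg (x : ℝ) (y : ℝ)
  rw [← ev_intCast] at h
  exact_mod_cast h

theorem ev_eq_zero_iff (x y : ℤ) : Q.ev x y = 0 ↔ x = 0 ∧ y = 0 := by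
  refine ⟨fun h => ?_, fun ⟨hx, hy⟩ => by simp [hx, hy, ev]⟩
  have h1 := Q.lowerConst_mul_le (x : ℝ) (y : ℝ)
  rw [← ev_intCast, h, Int.cast_zero] at h1
  have h2 : (x : ℝ) ^ 2 + (y : ℝ) ^ 2 ≤ 0 := by
    by_contra hne
    push Not at hne
    nlinarith [mul_pos Q.lowerConst_pos hne]
  constructor <;> [exact_mod_cast (show (x : ℝ) = 0 by nlinarith [sq_nonneg (x : ℝ), sq_nonneg (y : ℝ)]);
    exact_mod_cast (show (y : ℝ) = 0 by nlinarith [sq_nonneg (x : ℝ), sq_nonneg (y : ℝ)])]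

theorem finite_rep (n : ℕ) : {m : ℤ × ℤ | Q.ev m.1 m.2 = n}.Finite := by
  have hlt : (0 : ℝ) < rexp (-2 * π * n) := Real.exp_pos _
  have h := (Q.summable_exp_ev 0 0 one_pos).tendsto_cofinite_zero.eventually_lt_const hlt
  refine (Filter.eventually_cofinite.1 h).subset fun m hm => ?_
  have hm' : Q.ev m.1 m.2 = (n : ℤ) := hm
  have : Q.ev ((m.1 : ℝ) + 0) ((m.2 : ℝ) + 0) = (n : ℝ) := by
    rw [add_zero, add_zero, ← ev_intCast, hm']; simp
  show ¬ _ < _
  rw [this, mul_one]
  exact lt_irrefl _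

/-- The points representing `n`. -/
def repSet (n : ℕ) : Finset (ℤ × ℤ) := (Q.finite_rep n).toFinset

theorem mem_repSet {n : ℕ} {m : ℤ × ℤ} : m ∈ Q.repSet n ↔ Q.ev m.1 m.2 = n := by
  simp [repSet]

/-- The number of representations of `n`. -/
def rep (n : ℕ) : ℕ := (Q.repSet n).card

theorem rep_eq_natCard (n : ℕ) : Q.rep n = Nat.card {m : ℤ × ℤ // Q.ev m.1 m.2 = n} := by
  rw [rep, ← Nat.card_eq_finsetCard]
  exact Nat.card_congr (Equiv.subtypeEquivRight fun m => Q.mem_repSet)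

theorem rep_zero : Q.rep 0 = 1 := by
  rw [rep, Finset.card_eq_one]
  refine ⟨0, Finset.eq_singleton_iff_unique_mem.2 ⟨by simp [mem_repSet, ev], fun m hm => ?_⟩⟩
  rw [mem_repSet, Nat.cast_zero, ev_eq_zero_iff] at hm
  exact Prod.ext hm.1 hm.2

/-- Representation numbers of nonzero integers are even. -/
theorem even_rep {n : ℕ} (hn : n ≠ 0) : (Q.rep n : ZMod 2) = 0 := by
  rw [rep, Finset.cast_card]
  refine Finset.sum_involution (fun m _ => -m) (fun m _ => ?_) (fun m hm _ h => ?_) (fun m hm => ?_)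
    (fun m _ => neg_neg m)
  · decide
  · apply hn
    have h1 : m.1 = 0 := by have := congrArg Prod.fst h; simp at this; omega
    have h2 : m.2 = 0 := by have := congrArg Prod.snd h; simp at this; omega
    rw [mem_repSet, h1, h2] at hm
    simpa [ev] using hm.symm
  · rw [mem_repSet] at hm ⊢
    rw [← hm]; simp [ev]

theorem hasSum_theta {τ : ℂ} (hτ : 0 < τ.im) :
    HasSum (fun n : ℕ => (Q.rep n : ℂ) * 𝕢 1 τ ^ n) (Q.theta τ) := by
  let e : (Σ n : ℕ, {m : ℤ × ℤ // Q.ev m.1 m.2 = n}) ≃ ℤ × ℤ :=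
    { toFun := fun s => s.2.1
      invFun := fun m => ⟨(Q.ev m.1 m.2).toNat, m, (Int.toNat_of_nonneg (Q.ev_nonneg _ _)).symm⟩
      left_inv := by
        rintro ⟨n, m, hm⟩
        refine Sigma.subtype_ext ?_ rfl
        simp [hm]
      right_inv := fun m => rfl }
  have h := (e.hasSum_iff).2 (Q.summable_theta hτ).hasSum
  refine h.sigma fun n => ?_
  have hfin : Finite {m : ℤ × ℤ // Q.ev m.1 m.2 = n} := (Q.finite_rep n).to_subtype
  have := Fintype.ofFinite {m : ℤ × ℤ // Q.ev m.1 m.2 = n}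
  convert hasSum_fintype (α := ℂ) _ using 1
  rw [rep_eq_natCard, Nat.card_eq_fintype_card, ← Finset.card_univ, ← nsmul_eq_mul,
    ← Finset.sum_const]
  refine Finset.sum_congr rfl fun m _ => ?_
  simp only [Function.comp_apply, e, Equiv.coe_fn_mk]
  rw [← ev_intCast, m.2, Function.Periodic.qParam, ← Complex.exp_nat_mul]
  congr 1
  push_cast
  ring

end Fermat.Agent.Dihedral.BinForm
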