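import Fermat.Agent.Dihedral.QuadField
import Fermat.Agent.Dihedral.RepCount

/-!
# Counting ideals by norm and class

Norm forms, ideals of given norm and class, and invariance of the Gauss sums under squares.
-/

noncomputable section

namespace Fermat.Agent.Dihedral

open NumberField
open scoped nonZeroDivisors

variable {K : Type*} [Field K] [NumberField K] [IsImagQuadratic K]

open scoped Classical in
/-- The class of an ideal (`1` for the zero ideal). -/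
def classOf (b : Ideal (𝓞 K)) : ClassGroup (𝓞 K) :=
  if h : b ∈ (Ideal (𝓞 K))⁰ then ClassGroup.mk0 ⟨b, h⟩ else 1

omit [IsImagQuadratic K] in
theorem classOf_coe (b : (Ideal (𝓞 K))⁰) : classOf (b : Ideal (𝓞 K)) = ClassGroup.mk0 b := by
  rw [classOf, dif_pos b.2]

omit [IsImagQuadratic K] in
theorem mem_nonZeroDivisors_of_absNorm {b : Ideal (𝓞 K)} {n : ℕ} (hn : n ≠ 0)
    (h : Ideal.absNorm b = n) : b ∈ (Ideal (𝓞 K))⁰ := by
  refine mem_nonZeroDivisors_of_ne_zero fun hb => hn ?_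
  rw [← h, hb, map_zero]

omit [IsImagQuadratic K] in
theorem classOf_mul {a b : Ideal (𝓞 K)} (ha : a ≠ ⊥) (hb : b ≠ ⊥) :
    classOf (a * b) = classOf a * classOf b := by
  have ha' := mem_nonZeroDivisors_of_ne_zero ha
  have hb' := mem_nonZeroDivisors_of_ne_zero hb
  rw [show a = ((⟨a, ha'⟩ : (Ideal (𝓞 K))⁰) : Ideal (𝓞 K)) from rfl,
    show b = ((⟨b, hb'⟩ : (Ideal (𝓞 K))⁰) : Ideal (𝓞 K)) from rfl, classOf_coe, classOf_coe,
    ← map_mul, ← classOf_coe]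
  rfl

omit [IsImagQuadratic K] in
theorem classOf_span {x : 𝓞 K} (hx : x ≠ 0) : classOf (Ideal.span {x}) = 1 := by
  have h : Ideal.span {x} ∈ (Ideal (𝓞 K))⁰ :=
    mem_nonZeroDivisors_of_ne_zero (by simpa using hx)
  rw [classOf, dif_pos h, ClassGroup.mk0_eq_one_iff]
  exact ⟨⟨x, rfl⟩⟩

/-- Ideals of norm `n` in a given class. -/
abbrev IdealsIn (n : ℕ) (C : ClassGroup (𝓞 K)) : Type _ :=
  {b : Ideal (𝓞 K) // Ideal.absNorm b = n ∧ classOf b = C}

omit [IsImagQuadratic K] in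
theorem exists_generator (I : (Ideal (𝓞 K))⁰) {n : ℕ} (hn : n ≠ 0)
    (b : IdealsIn n (ClassGroup.mk0 I)⁻¹) :
    ∃ x : 𝓞 K, x ≠ 0 ∧ (I : Ideal (𝓞 K)) * (b : Ideal (𝓞 K)) = Ideal.span {x} := by
  have hb := mem_nonZeroDivisors_of_absNorm hn b.2.1
  have h := b.2.2
  rw [classOf, dif_pos hb] at h
  obtain ⟨x, hx, he⟩ := ClassGroup.mk0_eq_mk0_inv_iff.1 h
  exact ⟨x, hx, by rw [mul_comm]; exact he⟩

theorem nonempty_rep_equiv (I : (Ideal (𝓞 K))⁰) {n : ℕ} (hn : n ≠ 0) :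
    Nonempty ((𝓞 K)ˣ × IdealsIn n (ClassGroup.mk0 I)⁻¹ ≃
      {m : ℤ × ℤ // (normForm I).ev m.1 m.2 = n}) := by
  choose g hg0 hg using exists_generator I hn
  have hmem : ∀ (u : (𝓞 K)ˣ) b, (u : 𝓞 K) * g b ∈ (I : Ideal (𝓞 K)) := fun u b =>
    Ideal.mul_mem_left _ _ (Ideal.mul_le_left (J := (b : Ideal (𝓞 K)))
      (by rw [hg b]; exact Ideal.mem_span_singleton_self _))
  have hNI : (Ideal.absNorm (I : Ideal (𝓞 K)) : ℤ) ≠ 0 := by exact_mod_cast (absNorm_pos I).ne'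
  have hspan : ∀ (u : (𝓞 K)ˣ) b,
      Ideal.span {(u : 𝓞 K) * g b} = (I : Ideal (𝓞 K)) * (b : Ideal (𝓞 K)) := by
    intro u b
    rw [hg b, Ideal.span_singleton_eq_span_singleton]
    exact associated_unit_mul_left _ _ u.isUnit
  let f : (𝓞 K)ˣ × IdealsIn n (ClassGroup.mk0 I)⁻¹ →
      {m : ℤ × ℤ // (normForm I).ev m.1 m.2 = n} := fun p =>
    ⟨(latEquiv I).symm ⟨_, hmem p.1 p.2⟩, by
      apply mul_left_cancel₀ hNI
      rw [absNorm_mul_ev, ← latEquiv_apply, Equiv.apply_symm_apply, ← absNorm_span_eq, hspan,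
        map_mul, p.2.2.1]
      push_cast; ring⟩
  refine ⟨Equiv.ofBijective f ⟨?_, ?_⟩⟩
  · rintro ⟨u, b⟩ ⟨u', b'⟩ h
    have h1 : (u : 𝓞 K) * g b = u' * g b' :=
      congrArg Subtype.val ((latEquiv I).symm.injective (congrArg Subtype.val h))
    have hb : b = b' := by
      apply Subtype.ext
      apply mul_left_cancel₀ (nonZeroDivisors.coe_ne_zero I)
      rw [← hspan u b, ← hspan u' b', h1]
    subst hb
    have hu : u = u' := Units.ext (mul_right_cancel₀ (hg0 b) h1)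
    rw [hu]
  · rintro ⟨m, hm⟩
    set x := latEquiv I m with hx
    have hle : Ideal.span {(x : 𝓞 K)} ≤ (I : Ideal (𝓞 K)) :=
      (Ideal.span_singleton_le_iff_mem _).2 x.2
    obtain ⟨b, hb⟩ := Ideal.dvd_iff_le.2 hle
    have hN : Ideal.absNorm b = n := by
      have h1 := absNorm_span_eq K (x : 𝓞 K)
      rw [hx, latEquiv_apply, ← absNorm_mul_ev, hm, ← latEquiv_apply, ← hx, hb, map_mul] at h1
      push_cast at h1
      exact_mod_cast mul_left_cancel₀ hNI h1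
    have hx0 : (x : 𝓞 K) ≠ 0 := by
      intro h0
      have h1 := absNorm_mul_ev I m
      rw [hm, ← latEquiv_apply, ← hx, h0, Algebra.norm_zero] at h1
      exact hn (by exact_mod_cast (mul_eq_zero.1 h1).resolve_left hNI)
    have hbI := mem_nonZeroDivisors_of_absNorm hn hN
    have hcl : classOf b = (ClassGroup.mk0 I)⁻¹ := by
      rw [classOf, dif_pos hbI, ClassGroup.mk0_eq_mk0_inv_iff]
      exact ⟨x, hx0, by rw [hb]; exact mul_comm _ _⟩
    obtain ⟨u, hu⟩ : Associated (g ⟨b, hN, hcl⟩) (x : 𝓞 K) := by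
      rw [← Ideal.span_singleton_eq_span_singleton, ← hg, hb]
    refine ⟨(u, ⟨b, hN, hcl⟩), Subtype.ext ?_⟩
    show (latEquiv I).symm _ = m
    rw [Equiv.symm_apply_eq]
    apply Subtype.ext
    show (u : 𝓞 K) * g _ = x
    rw [mul_comm]; exact hu

variable (K) in
/-- The number of units. -/
def unitCount : ℕ := Nat.card (𝓞 K)ˣ

theorem unitCount_pos : 0 < unitCount K := by
  have hb : Ideal.absNorm (⊤ : Ideal (𝓞 K)) = 1 ∧
      classOf (⊤ : Ideal (𝓞 K)) = (ClassGroup.mk0 (1 : (Ideal (𝓞 K))⁰))⁻¹ := by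
    refine ⟨Ideal.absNorm_top, ?_⟩
    rw [map_one, inv_one, ← Ideal.span_singleton_one, classOf_span one_ne_zero]
  obtain ⟨e⟩ := nonempty_rep_equiv (1 : (Ideal (𝓞 K))⁰) one_ne_zero
  have : Finite {m : ℤ × ℤ // (normForm (1 : (Ideal (𝓞 K))⁰)).ev m.1 m.2 = (1 : ℕ)} :=
    ((normForm _).finite_rep 1).to_subtype
  have : Finite (𝓞 K)ˣ := Finite.of_injective (fun u => e (u, ⟨⊤, hb⟩))
    fun u v h => congrArg Prod.fst (e.injective h)
  exact Nat.card_pos

theorem rep_normForm (I : (Ideal (𝓞 K))⁰) {n : ℕ} (hn : n ≠ 0) :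
    (normForm I).rep n = unitCount K * Nat.card (IdealsIn n (ClassGroup.mk0 I)⁻¹) := by
  obtain ⟨e⟩ := nonempty_rep_equiv I hn
  rw [BinForm.rep_eq_natCard, ← Nat.card_congr e, Nat.card_prod, unitCount]

/-- Every class contains an ideal of norm prime to a given `c`. -/
theorem exists_coprime_rep (C : ClassGroup (𝓞 K)) {c : ℕ} (hc : c ≠ 0) :
    ∃ B : (Ideal (𝓞 K))⁰, ClassGroup.mk0 B = C ∧
      Nat.Coprime (Ideal.absNorm (B : Ideal (𝓞 K))) c := by
  rcases eq_or_ne c 1 with rfl | hc1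
  · obtain ⟨B, hB⟩ := ClassGroup.mk0_surjective C
    exact ⟨B, hB, Nat.coprime_one_right _⟩
  obtain ⟨I, hI⟩ := ClassGroup.mk0_surjective C⁻¹
  have hI0 : (I : Ideal (𝓞 K)) ≠ 0 := nonZeroDivisors.coe_ne_zero I
  have hc0 : (c : 𝓞 K) ≠ 0 := Nat.cast_ne_zero.2 hc
  obtain ⟨x, hx⟩ := IsDedekindDomain.exists_sup_span_eq
    (Ideal.mul_le_left : (I : Ideal (𝓞 K)) * Ideal.span {(c : 𝓞 K)} ≤ I)
    (mul_ne_zero hI0 (by simpa using hc0))
  obtain ⟨b, hb⟩ := Ideal.dvd_iff_le.2 (hx ▸ le_sup_right : Ideal.span {x} ≤ (I : Ideal (𝓞 K)))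
  have hsup : Ideal.span {(c : 𝓞 K)} ⊔ b = ⊤ := by
    rw [← Ideal.one_eq_top]
    apply mul_left_cancel₀ hI0
    rw [Ideal.mul_sup, ← hb, hx, mul_one]
  have hb0 : b ≠ ⊥ := by
    rintro rfl
    rw [sup_bot_eq] at hsup
    have h := congrArg Ideal.absNorm hsup
    rw [Ideal.absNorm_top, ← Int.natCast_inj, absNorm_span_eq,
      show ((c : ℕ) : 𝓞 K) = algebraMap ℤ (𝓞 K) (c : ℤ) by simp, Algebra.norm_algebraMap,
      RingOfIntegers.rank, IsImagQuadratic.finrank_eq] at h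
    apply hc1
    have h' : (c : ℤ) ^ 2 = 1 := by exact_mod_cast h
    have : c ^ 2 = 1 := by exact_mod_cast h'
    exact (Nat.pow_eq_one.1 this).resolve_right two_ne_zero
  refine ⟨⟨b, mem_nonZeroDivisors_of_ne_zero hb0⟩, ?_, ?_⟩
  · rw [← inv_inv C, ← hI, eq_inv_iff_mul_eq_one, ← map_mul, ClassGroup.mk0_eq_one_iff]
    exact ⟨⟨x, by rw [mul_comm]; exact hb.symm⟩⟩
  · by_contra h
    obtain ⟨ℓ, hℓ, h1, h2⟩ := Nat.Prime.not_coprime_iff_dvd.1 h
    obtain ⟨P, hP, hPu, hPb⟩ := Ideal.exists_isMaximal_dvd_of_dvd_absNorm' hℓ b h1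
    apply hP.ne_top
    rw [eq_top_iff, ← hsup, sup_le_iff, Ideal.span_singleton_le_iff_mem]
    refine ⟨?_, Ideal.dvd_iff_le.1 hPb⟩
    obtain ⟨k, rfl⟩ := h2
    have hl : (ℓ : ℤ) ∈ P.under ℤ := by rw [hPu]; exact Ideal.mem_span_singleton_self _
    rw [Ideal.mem_comap] at hl
    push_cast
    exact Ideal.mul_mem_right _ _ (by simpa using hl)

/-- The Gauss sums only depend on the class modulo squares. -/
theorem gauss_normForm_mul_sq (I B : (Ideal (𝓞 K))⁰) (c : ℕ) [NeZero c] (a : ℤ)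
    (hco : Nat.Coprime (Ideal.absNorm (B : Ideal (𝓞 K))) c) :
    (normForm (I * B * B)).gauss c a 0 = (normForm I).gauss c a 0 := by
  set N : ℕ := Ideal.absNorm (B : Ideal (𝓞 K)) with hN
  have hle : ((I * B * B : (Ideal (𝓞 K))⁰) : Ideal (𝓞 K)) ≤ I := by
    rw [Submonoid.coe_mul, Submonoid.coe_mul]
    exact Ideal.mul_le_left.trans Ideal.mul_le_left
  have hNI : (Ideal.absNorm (I : Ideal (𝓞 K)) : ℤ) ≠ 0 := by exact_mod_cast (absNorm_pos I).ne'
  let φ : ℤ × ℤ → ℤ × ℤ := fun m => (latEquiv I).symm ⟨lat (I * B * B) m, hle (lat_mem _ m)⟩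
  have hφ : ∀ m, lat I (φ m) = lat (I * B * B) m := fun m => by
    rw [← latEquiv_apply, Equiv.apply_symm_apply]
  have hlin : ∀ m : ℤ × ℤ, φ m = m.1 • φ (1, 0) + m.2 • φ (0, 1) := fun m => by
    apply (latEquiv I).injective
    apply Subtype.ext
    have hl : ∀ (i j : ℤ) (p q : ℤ × ℤ), lat I (i • p + j • q) = i • lat I p + j • lat I q := by
      intro i j p q
      simp [lat, zsmul_eq_mul]; ring
    rw [latEquiv_apply, latEquiv_apply, hφ, hl, hφ, hφ]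
    simp [lat, zsmul_eq_mul]
  have hev : ∀ m : ℤ × ℤ, (normForm I).ev (φ m).1 (φ m).2
      = (N : ℤ) ^ 2 * (normForm (I * B * B)).ev m.1 m.2 := fun m => by
    apply mul_left_cancel₀ hNI
    rw [absNorm_mul_ev, hφ, ← absNorm_mul_ev]
    rw [Submonoid.coe_mul, Submonoid.coe_mul, map_mul, map_mul, hN]
    push_cast; ring
  have hsurj : ∀ k : ℤ × ℤ, ∃ m, φ m = ((N : ℤ) ^ 2) • k := by
    intro k
    have hmem : lat I (((N : ℤ) ^ 2) • k) ∈ ((I * B * B : (Ideal (𝓞 K))⁰) : Ideal (𝓞 K)) := by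
      rw [Submonoid.coe_mul, Submonoid.coe_mul,
        show lat I (((N : ℤ) ^ 2) • k) = lat I k * (N : 𝓞 K) * (N : 𝓞 K) by
          simp [lat, zsmul_eq_mul]; ring]
      exact Ideal.mul_mem_mul (Ideal.mul_mem_mul (lat_mem I k) (Ideal.absNorm_mem _))
        (Ideal.absNorm_mem _)
    refine ⟨(latEquiv (I * B * B)).symm ⟨_, hmem⟩, ?_⟩
    apply (latEquiv I).injective
    apply Subtype.ext
    rw [latEquiv_apply, latEquiv_apply, hφ, ← latEquiv_apply, Equiv.apply_symm_apply]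
  set u : ZMod c := (N : ZMod c)⁻¹ with hu
  have huN : (N : ZMod c) * u = 1 := ZMod.coe_mul_inv_eq_one N hco
  let Φ : ZMod c × ZMod c → ZMod c × ZMod c := fun g =>
    (u * ((g.1 : ZMod c) * ((φ (1, 0)).1 : ZMod c) + g.2 * ((φ (0, 1)).1 : ZMod c)),
     u * ((g.1 : ZMod c) * ((φ (1, 0)).2 : ZMod c) + g.2 * ((φ (0, 1)).2 : ZMod c)))
  have hΦ : ∀ m : ℤ × ℤ, Φ ((m.1 : ZMod c), (m.2 : ZMod c))
      = (u * ((φ m).1 : ZMod c), u * ((φ m).2 : ZMod c)) := fun m => by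
    rw [hlin m]; simp [Φ]
  have hlift : ∀ g : ZMod c × ZMod c,
      ((((g.1.val : ℤ), (g.2.val : ℤ)).1 : ZMod c), (((g.1.val : ℤ), (g.2.val : ℤ)).2 : ZMod c))
        = g := fun g => by simp
  have hΦsurj : Function.Surjective Φ := by
    intro g
    obtain ⟨m, hm⟩ := hsurj (((u * g.1).val : ℤ), ((u * g.2).val : ℤ))
    refine ⟨((m.1 : ZMod c), (m.2 : ZMod c)), ?_⟩
    rw [hΦ, hm]
    refine Prod.ext ?_ ?_
    · simp
      linear_combination (g.1 * ((N : ZMod c) * u + 1)) * huN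
    · simp
      linear_combination (g.2 * ((N : ZMod c) * u + 1)) * huN
  have hΦbij : Function.Bijective Φ := ⟨Finite.injective_iff_surjective.2 hΦsurj, hΦsurj⟩
  rw [BinForm.gauss, BinForm.gauss]
  conv_rhs => rw [← (Equiv.ofBijective Φ hΦbij).sum_comp]
  refine Finset.sum_congr rfl fun g _ => ?_
  congr 1
  simp only [Prod.fst_zero, Prod.snd_zero, Int.cast_zero, zero_mul, add_zero,
    Equiv.ofBijective_apply]
  congr 1
  conv_rhs => rw [← hlift g, hΦ]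
  conv_lhs => rw [← hlift g]
  have h := congrArg (fun z : ℤ => (z : ZMod c)) (hev ((g.1.val : ℤ), (g.2.val : ℤ)))
  simp only [Int.cast_mul, Int.cast_pow, Int.cast_natCast, BinForm.ev_intCast] at h
  simp only [Int.cast_natCast] at h ⊢
  rw [show ∀ x y : ZMod c, (normForm I).ev (u * x) (u * y) = u ^ 2 * (normForm I).ev x y from
    fun x y => by simp only [BinForm.ev]; ring, h, ← mul_assoc, ← mul_pow, mul_comm u, huN,
    one_pow, one_mul]

end Fermat.Agent.Dihedral
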