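import Fermat.Agent.Dihedral.Theta2D

/-!
# Transformation laws of binary theta series

Behaviour of binary theta series under all of `SL₂(ℤ)` and the character on `Γ₀(D)`.
-/

noncomputable section

namespace Fermat.Agent.Dihedral

open Complex Real

/-- `ℤ ≃ ℤ × ℤ/c`, quotient and residue. -/
def intDivMod (c : ℕ) [NeZero c] : ℤ ≃ ℤ × ZMod c where
  toFun x := (x / c, (x : ZMod c))
  invFun p := (c : ℤ) * p.1 + p.2.val
  left_inv x := by
    simp only [ZMod.val_intCast]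
    exact Int.mul_ediv_add_emod x c
  right_inv p := by
    have hc : (c : ℤ) ≠ 0 := by exact_mod_cast NeZero.ne c
    have hlt : (p.2.val : ℤ) < c := by exact_mod_cast ZMod.val_lt p.2
    refine Prod.ext ?_ ?_
    · show ((c : ℤ) * p.1 + p.2.val) / c = p.1
      rw [Int.mul_add_ediv_left _ _ hc, Int.ediv_eq_zero_of_lt (by positivity) hlt, add_zero]
    · show (((c : ℤ) * p.1 + p.2.val : ℤ) : ZMod c) = p.2
      push_cast
      simp

namespace BinForm

variable (Q : BinForm)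

/-- The theta series `∑ q^{Q(m)}`. -/
def theta (τ : ℂ) : ℂ := ∑' m : ℤ × ℤ, cexp (2 * π * I * τ * Q.ev (m.1 : ℂ) (m.2 : ℂ))

theorem summable_theta {τ : ℂ} (hτ : 0 < τ.im) :
    Summable fun m : ℤ × ℤ => cexp (2 * π * I * τ * Q.ev (m.1 : ℂ) (m.2 : ℂ)) :=
  (Q.summable_thetaTerm 0 0 hτ).congr fun m => by simp [thetaTerm]

theorem theta_add_intCast (τ : ℂ) (n : ℤ) : Q.theta (τ + n) = Q.theta τ := by
  refine tsum_congr fun m => ?_
  rw [show 2 * π * I * (τ + n) * Q.ev (m.1 : ℂ) (m.2 : ℂ)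
      = 2 * π * I * τ * Q.ev (m.1 : ℂ) (m.2 : ℂ) + ((n * Q.ev m.1 m.2 : ℤ) : ℂ) * (2 * π * I) by
    push_cast [ev_intCast]; ring,
    Complex.exp_add, Complex.exp_int_mul_two_pi_mul_I, mul_one]

/-- The quadratic Gauss sum `∑ e((a Q(g) + ⟨m, g⟩)/c)`. -/
def gauss (c : ℕ) [NeZero c] (a : ℤ) (m : ℤ × ℤ) : ℂ :=
  ∑ g : ZMod c × ZMod c,
    ZMod.stdAddChar ((a : ZMod c) * Q.ev g.1 g.2 + (m.1 : ZMod c) * g.1 + (m.2 : ZMod c) * g.2)

theorem gauss_eq_sum (c : ℕ) [NeZero c] (a : ℤ) (m : ℤ × ℤ) :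
    Q.gauss c a m = ∑ g : ZMod c × ZMod c,
      cexp (2 * π * I * ((a * Q.ev (g.1.val : ℤ) (g.2.val : ℤ) + m.1 * g.1.val + m.2 * g.2.val : ℤ)
        : ℂ) / c) := by
  refine Finset.sum_congr rfl fun g _ => ?_
  rw [← ZMod.stdAddChar_coe]
  congr 1
  push_cast [ev_intCast]
  simp

theorem norm_gauss_le (c : ℕ) [NeZero c] (a : ℤ) (m : ℤ × ℤ) :
    ‖Q.gauss c a m‖ ≤ (c : ℝ) * c := by
  refine le_trans (norm_sum_le _ _) ?_
  simp [ZMod.stdAddChar_apply]

/-- The inversion formula at `γ τ`, `γ = (a b; c d)` with `c > 0`. -/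
theorem theta_moebius {a b d : ℤ} (c : ℕ) [NeZero c] (hdet : a * d - b * c = 1) {τ : ℂ}
    (hτ : 0 < τ.im) :
    Q.theta ((a * τ + b) / (c * τ + d)) = -I * (c * τ + d) / (c * Real.sqrt Q.D) *
      ∑' m : ℤ × ℤ, Q.gauss c a m *
        cexp (2 * π * I * ((c * τ + d) / (c * Q.D)) * Q.adj.ev (m.1 : ℂ) (m.2 : ℂ)) := by
  set w : ℂ := c * τ + d with hw
  have hc : (0 : ℝ) < c := by exact_mod_cast Nat.pos_of_ne_zero (NeZero.ne c)
  have hcC : (c : ℂ) ≠ 0 := Nat.cast_ne_zero.2 (NeZero.ne c)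
  have hDC : (Q.D : ℂ) ≠ 0 := by exact_mod_cast Q.D_pos.ne'
  have hwim : 0 < w.im := by simp [hw, mul_im]; positivity
  have hw0 : w ≠ 0 := fun h => by simp [h] at hwim
  have hz : (a * τ + b) / w = (a : ℂ) / c - 1 / (c * w) := by
    have hdet' : (a : ℂ) * d - b * c = 1 := by exact_mod_cast congrArg (Int.cast : ℤ → ℂ) hdet
    field_simp
    rw [hw]
    linear_combination -hdet'
  set T : ℂ := -(c : ℂ) / w with hT
  have hTim : 0 < T.im := by
    rw [hT, neg_div, neg_im, div_im]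
    simp only [natCast_re, natCast_im, zero_mul, zero_div, zero_sub, neg_neg]
    exact div_pos (by positivity) (normSq_pos.2 hw0)
  let e : (ZMod c × ZMod c) × (ℤ × ℤ) ≃ ℤ × ℤ :=
    (Equiv.prodComm _ _).trans ((Equiv.prodProdProdComm _ _ _ _).trans
      ((intDivMod c).symm.prodCongr (intDivMod c).symm))
  have hzim : 0 < ((a * τ + b) / w).im := by
    rw [hz, sub_im, show ((a : ℂ) / c).im = 0 by simp [div_im], zero_sub,
      show -(1 / ((c : ℂ) * w)).im = T.im * (1 / (c : ℝ) ^ 2) by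
        rw [hT]
        simp [div_im, mul_im]
        field_simp]
    positivity
  have hterm : ∀ (g : ZMod c × ZMod c) (n : ℤ × ℤ),
      cexp (2 * π * I * ((a * τ + b) / w) * Q.ev ((e (g, n)).1 : ℂ) ((e (g, n)).2 : ℂ))
        = cexp (2 * π * I * ((a * Q.ev (g.1.val : ℤ) (g.2.val : ℤ) : ℤ) : ℂ) / c) *
            Q.thetaTerm ((g.1.val : ℝ) / c) ((g.2.val : ℝ) / c) T n := by
    intro g n
    have he : e (g, n) = ((c : ℤ) * n.1 + g.1.val, (c : ℤ) * n.2 + g.2.val) := rfl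
    set x : ℤ := (g.1.val : ℤ)
    set y : ℤ := (g.2.val : ℤ)
    set r : ℤ := a * (Q.A * (2 * x * n.1 + c * n.1 ^ 2) +
      Q.B * (x * n.2 + n.1 * y + c * n.1 * n.2) + Q.C * (2 * y * n.2 + c * n.2 ^ 2)) with hr
    rw [he, hz, thetaTerm, ← Complex.exp_add, Complex.exp_eq_exp_iff_exists_int]
    refine ⟨r, ?_⟩
    simp only [hT, hr, ev, x, y]
    push_cast
    field_simp
    ring
  rw [theta, ← e.tsum_eq]
  have hs : Summable fun q : (ZMod c × ZMod c) × (ℤ × ℤ) =>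
      cexp (2 * π * I * ((a * τ + b) / w) * Q.ev ((e q).1 : ℂ) ((e q).2 : ℂ)) :=
    (Q.summable_theta hzim).comp_injective e.injective
  rw [hs.tsum_prod]
  simp only [hterm, tsum_mul_left, tsum_fintype]
  rw [Finset.sum_congr rfl fun (g : ZMod c × ZMod c) _ => congrArg _
    (show ∑' n, Q.thetaTerm ((g.1.val : ℝ) / c) ((g.2.val : ℝ) / c) T n = _ from
      Q.thetaShift_eq _ _ hTim)]
  have hK : I / (T * Real.sqrt Q.D) = -I * w / (c * Real.sqrt Q.D) := by
    rw [hT]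
    have : (Real.sqrt Q.D : ℂ) ≠ 0 :=
      ofReal_ne_zero.2 (Real.sqrt_pos.2 (by exact_mod_cast Q.D_pos)).ne'
    field_simp
  have hw' : -1 / ((Q.D : ℂ) * T) = w / (c * Q.D) := by rw [hT]; field_simp
  rw [hK, hw']
  simp_rw [mul_left_comm (cexp (2 * π * I * ((_ : ℤ) : ℂ) / c)) (-I * w / (c * Real.sqrt Q.D))]
  rw [← Finset.mul_sum]
  congr 1
  have hs' : ∀ g : ZMod c × ZMod c, Summable fun m : ℤ × ℤ =>
      cexp (2 * π * I * (w / (c * Q.D)) * Q.adj.ev (m.1 : ℂ) (m.2 : ℂ) +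
        2 * π * I * (m.1 * (((g.1.val : ℝ) / c : ℝ) : ℂ) +
          m.2 * (((g.2.val : ℝ) / c : ℝ) : ℂ))) := by
    intro g
    have him : 0 < (w / ((c : ℂ) * Q.D)).im := by
      rw [show (c : ℂ) * Q.D = (((c : ℝ) * Q.D : ℝ) : ℂ) by push_cast; rfl, Complex.div_ofReal_im]
      have : (0 : ℝ) < Q.D := by exact_mod_cast Q.D_pos
      positivity
    refine Summable.of_norm_bounded (Q.adj.summable_exp_ev 0 0 him) fun m => ?_
    refine le_trans (le_of_eq ?_) (Q.adj.norm_thetaTerm_le 0 0 le_rfl m)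
    rw [Complex.exp_add, norm_mul,
      show 2 * π * I * ((m.1 : ℂ) * (((g.1.val : ℝ) / c : ℝ) : ℂ) +
          m.2 * (((g.2.val : ℝ) / c : ℝ) : ℂ))
        = ((2 * π * ((m.1 : ℝ) * ((g.1.val : ℝ) / c) + m.2 * ((g.2.val : ℝ) / c)) : ℝ) : ℂ) * I by
          push_cast; ring,
      Complex.norm_exp_ofReal_mul_I, mul_one, thetaTerm]
    simp
  simp only [← tsum_mul_left]
  rw [← Summable.tsum_finsetSum fun g _ => (hs' g).mul_left _]
  refine tsum_congr fun m => ?_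
  rw [gauss_eq_sum, Finset.sum_mul]
  refine Finset.sum_congr rfl fun g _ => ?_
  rw [← Complex.exp_add, ← Complex.exp_add]
  congr 1
  push_cast
  ring

theorem gauss_one (a : ℤ) (m : ℤ × ℤ) : Q.gauss 1 a m = 1 := by
  rw [gauss, Finset.sum_congr rfl (g := fun _ => (1 : ℂ)) fun g _ => ?_]
  · simp
  · exact (congrArg _ (Subsingleton.elim _ 0)).trans (AddChar.map_zero_eq_one _)

/-- Completing the square for `c` prime to the discriminant. -/
theorem gauss_eq_mul_gauss_zero (c : ℕ) [NeZero c] {a b d : ℤ} (hdet : a * d - b * c = 1)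
    (hD : IsCoprime (Q.D) (c : ℤ)) (m : ℤ × ℤ) :
    Q.gauss c a m = ZMod.stdAddChar (-(d : ZMod c) * (Q.D : ZMod c)⁻¹ *
      Q.adj.ev (m.1 : ZMod c) (m.2 : ZMod c)) * Q.gauss c a 0 := by
  have hDu : (Q.D : ZMod c) * (Q.D : ZMod c)⁻¹ = 1 := by
    obtain ⟨u, v, huv⟩ := hD
    refine ZMod.mul_inv_of_unit _ (IsUnit.of_mul_eq_one (u : ZMod c) ?_)
    have h1 := congrArg (fun z : ℤ => (z : ZMod c)) huv
    push_cast at h1
    rw [ZMod.natCast_self, mul_zero, add_zero] at h1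
    linear_combination h1
  have had : (a : ZMod c) * d = 1 := by
    have h1 := congrArg (fun z : ℤ => (z : ZMod c)) hdet
    push_cast at h1
    rw [ZMod.natCast_self, mul_zero, sub_zero] at h1
    exact h1
  have hD' : (Q.D : ZMod c) = 4 * (Q.A : ZMod c) * Q.C - (Q.B : ZMod c) ^ 2 := by simp [D]
  set i : ZMod c := (Q.D : ZMod c)⁻¹
  set k₁ : ZMod c := i * (2 * Q.C * (m.1 : ZMod c) - Q.B * (m.2 : ZMod c))
  set k₂ : ZMod c := i * (-Q.B * (m.1 : ZMod c) + 2 * Q.A * (m.2 : ZMod c))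
  rw [gauss, gauss, Finset.mul_sum, ← Equiv.sum_comp (Equiv.addRight (-(d : ZMod c) * k₁,
    -(d : ZMod c) * k₂))]
  refine Finset.sum_congr rfl fun g _ => ?_
  rw [← AddChar.map_add_eq_mul]
  congr 1
  simp only [Equiv.coe_addRight, Prod.fst_add, Prod.snd_add, Prod.fst_zero, Prod.snd_zero,
    Int.cast_zero, zero_mul, add_zero, ev, adj, k₁, k₂]
  push_cast
  rw [hD'] at hDu
  linear_combination (-(g.1 * (m.1 : ZMod c) + g.2 * (m.2 : ZMod c)) * (a : ZMod c) * d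
      + (d : ZMod c) ^ 2 * a * i *
        ((Q.C : ZMod c) * (m.1 : ZMod c) ^ 2 - Q.B * (m.1 : ZMod c) * (m.2 : ZMod c)
          + Q.A * (m.2 : ZMod c) ^ 2)) * hDu
    + (-(g.1 * (m.1 : ZMod c) + g.2 * (m.2 : ZMod c))
      + (d : ZMod c) * i * ((Q.C : ZMod c) * (m.1 : ZMod c) ^ 2
          - Q.B * (m.1 : ZMod c) * (m.2 : ZMod c) + Q.A * (m.2 : ZMod c) ^ 2)) * had

/-- `γ τ` for `γ = (a b; c d)`, `c` prime to `D`, `D ∣ d`. -/
theorem theta_moebius_coprime {a b d : ℤ} (c : ℕ) [NeZero c] (hdet : a * d - b * c = 1)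
    (hD : IsCoprime (Q.D) (c : ℤ)) (hd : Q.D ∣ d) {τ : ℂ} (hτ : 0 < τ.im) :
    Q.theta ((a * τ + b) / (c * τ + d)) = Q.gauss c a 0 / c *
      (-I * (c * τ + d) / Real.sqrt Q.D * Q.adj.theta (τ / Q.D)) := by
  obtain ⟨d', rfl⟩ := hd
  have hcC : (c : ℂ) ≠ 0 := Nat.cast_ne_zero.2 (NeZero.ne c)
  have hDC : (Q.D : ℂ) ≠ 0 := by exact_mod_cast Q.D_pos.ne'
  have hsum : ∀ m : ℤ × ℤ, Q.gauss c a m *
      cexp (2 * π * I * ((c * τ + ((Q.D * d' : ℤ) : ℂ)) / (c * Q.D)) *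
        Q.adj.ev (m.1 : ℂ) (m.2 : ℂ))
      = Q.gauss c a 0 * cexp (2 * π * I * (τ / Q.D) * Q.adj.ev (m.1 : ℂ) (m.2 : ℂ)) := by
    intro m
    have hu : (Q.D : ZMod c) * (Q.D : ZMod c)⁻¹ = 1 := by
      obtain ⟨u, v, huv⟩ := hD
      refine ZMod.mul_inv_of_unit _ (IsUnit.of_mul_eq_one (u : ZMod c) ?_)
      have h1 := congrArg (fun z : ℤ => (z : ZMod c)) huv
      push_cast at h1
      rw [ZMod.natCast_self, mul_zero, add_zero] at h1
      linear_combination h1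
    rw [Q.gauss_eq_mul_gauss_zero c hdet hD m,
      show (-((Q.D * d' : ℤ) : ZMod c) * (Q.D : ZMod c)⁻¹ *
          Q.adj.ev (m.1 : ZMod c) (m.2 : ZMod c))
        = ((-(d' * Q.adj.ev m.1 m.2) : ℤ) : ZMod c) by
          push_cast [ev_intCast]
          linear_combination (-(d' : ZMod c) * Q.adj.ev (m.1 : ZMod c) (m.2 : ZMod c)) * hu,
      ZMod.stdAddChar_coe, mul_comm (cexp _) (Q.gauss c a 0), mul_assoc, ← Complex.exp_add]
    congr 2
    push_cast [ev_intCast]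
    field_simp
    ring
  rw [Q.theta_moebius c hdet hτ, tsum_congr hsum, tsum_mul_left]
  rw [show ∑' m : ℤ × ℤ, cexp (2 * π * I * (τ / Q.D) * Q.adj.ev (m.1 : ℂ) (m.2 : ℂ))
    = Q.adj.theta (τ / Q.D) from rfl]
  field_simp

theorem im_neg_one_div_pos {τ : ℂ} (hτ : 0 < τ.im) : 0 < (-1 / τ).im := by
  have : τ ≠ 0 := by rintro rfl; simp at hτ
  rw [neg_div, one_div, neg_im, inv_im, neg_div, neg_neg]
  exact div_pos hτ (normSq_pos.2 this)

/-- The key formula on `Γ₀(D)`, when `d > 0` is prime to `D`. -/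
theorem theta_moebius_gamma0 {a b c : ℤ} (d : ℕ) [NeZero d] (hdet : a * d - b * c = 1)
    (hD : IsCoprime (Q.D) (d : ℤ)) (hc : Q.D ∣ c) {τ : ℂ} (hτ : 0 < τ.im) :
    Q.theta ((a * τ + b) / (c * τ + d)) = Q.gauss d b 0 / d * (c * τ + d) * Q.theta τ := by
  have hτ0 : τ ≠ 0 := by rintro rfl; simp at hτ
  set t : ℂ := -1 / τ with ht
  have htim : 0 < t.im := im_neg_one_div_pos hτ
  have hτt : τ = -1 / t := by rw [ht]; field_simp
  have ht0 : t ≠ 0 := by intro h; simp [h] at htim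
  have h1 := Q.theta_moebius_coprime (a := b) (b := -a) (d := -c) d (by linarith) hD hc.neg_right htim
  have h2 := Q.theta_moebius_coprime (a := 0) (b := -1) (d := 0) 1 (by norm_num)
    (by simpa using (isCoprime_one_right (x := Q.D))) (dvd_zero _) htim
  rw [gauss_one] at h2
  simp only [Nat.cast_one, Int.cast_zero, Int.cast_neg, Int.cast_one, zero_mul, zero_add, one_mul,
    add_zero, div_one] at h2
  have h3 : ((b : ℂ) * t + ((-a : ℤ) : ℂ)) / ((d : ℂ) * t + ((-c : ℤ) : ℂ))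
      = ((a : ℂ) * τ + b) / (c * τ + d) := by
    rw [ht]
    push_cast
    rw [show (b : ℂ) * (-1 / τ) + -(a : ℂ) = -((a * τ + b) / τ) by field_simp; ring,
      show (d : ℂ) * (-1 / τ) + -(c : ℂ) = -((c * τ + d) / τ) by field_simp; ring,
      neg_div_neg_eq, div_div_div_cancel_right₀ hτ0]
  rw [h3] at h1
  rw [h1, show Q.theta τ = Q.theta (-1 / t) by rw [← hτt], h2]
  have he : (d : ℂ) * t + ((-c : ℤ) : ℂ) = (c * τ + d) * t := by
    rw [hτt]; push_cast; field_simp; ring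
  rw [he]
  ring

/-- The Gauss sum modulo a large prime. -/
theorem gauss_zero_prime (p : ℕ) [Fact p.Prime] (hp : p ≠ 2) {b : ℤ} (hb : (b : ZMod p) ≠ 0)
    (hA : (Q.A : ZMod p) ≠ 0) (hD : (Q.D : ZMod p) ≠ 0) :
    Q.gauss p b 0 = (quadraticChar (ZMod p) (-Q.D) : ℂ) * p := by
  have hchar : ringChar (ZMod p) ≠ 2 := by rwa [ZMod.ringChar_zmod_n]
  have h2 : (2 : ZMod p) ≠ 0 := Ring.two_ne_zero hchar
  set χ : MulChar (ZMod p) ℂ := (quadraticChar (ZMod p)).ringHomComp (Int.castRingHom ℂ) with hχ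
  set ψ : AddChar (ZMod p) ℂ := ZMod.stdAddChar with hψ
  have hψp : ψ.IsPrimitive := ZMod.isPrimitive_stdAddChar p
  have hχ1 : χ ≠ 1 := (MulChar.ringHomComp_ne_one_iff (Int.cast_injective (α := ℂ))).2
    (quadraticChar_ne_one hchar)
  have hχ2 : χ.IsQuadratic := (quadraticChar_isQuadratic _).comp _
  have hsum : ∀ u : ZMod p, u ≠ 0 → ∑ x : ZMod p, ψ (u * x ^ 2) = χ u * gaussSum χ ψ := by
    intro u hu
    have hmap : ∑ x : ZMod p, ψ (u * x ^ 2) = ∑ v : ZMod p, ((χ v : ℂ) + 1) * ψ (u * v) := by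
      rw [← Finset.sum_fiberwise Finset.univ (fun x : ZMod p => x ^ 2)]
      refine Finset.sum_congr rfl fun v _ => ?_
      rw [Finset.sum_congr rfl (g := fun _ => ψ (u * v)) (fun x hx => by
        rw [(Finset.mem_filter.1 hx).2]), Finset.sum_const, nsmul_eq_mul]
      congr 1
      have h := quadraticChar_card_sqrts hchar v
      have h' : ((Finset.univ.filter fun x : ZMod p => x ^ 2 = v).card : ℤ)
          = quadraticChar (ZMod p) v + 1 := by
        rw [← h]; congr 2; ext x; simp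
      rw [hχ, MulChar.ringHomComp_apply, eq_intCast, ← Int.cast_natCast, h']
      push_cast
      ring
    have h0 : ∑ v : ZMod p, ψ (u * v) = 0 := AddChar.sum_eq_zero_of_ne_one (hψp hu)
    rw [hmap]
    simp only [add_mul, one_mul, Finset.sum_add_distrib, h0, add_zero]
    rw [show ∑ v : ZMod p, χ v * ψ (u * v) = gaussSum χ (ψ.mulShift u) from rfl,
      ← gaussSum_mulShift χ ψ (Units.mk0 u hu), Units.val_mk0, ← mul_assoc,
      ← map_mul]
    have huu : χ (u * u) = 1 := by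
      rw [hχ, MulChar.ringHomComp_apply, ← sq, quadraticChar_sq_one' hu, map_one]
    rw [huu, one_mul]
  set A' : ZMod p := (Q.A : ZMod p)
  set D' : ZMod p := (Q.D : ZMod p) with hD'
  set e : ZMod p × ZMod p ≃ ZMod p × ZMod p :=
    { toFun := fun g => (g.1 - (Q.B : ZMod p) * g.2 / (2 * A'), g.2)
      invFun := fun g => (g.1 + (Q.B : ZMod p) * g.2 / (2 * A'), g.2)
      left_inv := fun g => by simp
      right_inv := fun g => by simp }
  have hu1 : (b : ZMod p) * A' ≠ 0 := mul_ne_zero hb hA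
  have h4 : (4 : ZMod p) ≠ 0 := by
    rw [show (4 : ZMod p) = 2 * 2 by norm_num]; exact mul_ne_zero h2 h2
  have hu2 : (b : ZMod p) * D' / (4 * A') ≠ 0 :=
    div_ne_zero (mul_ne_zero hb hD) (mul_ne_zero h4 hA)
  calc Q.gauss p b 0
      = ∑ g : ZMod p × ZMod p, ψ ((b : ZMod p) * A' * g.1 ^ 2)
          * ψ ((b : ZMod p) * D' / (4 * A') * g.2 ^ 2) := by
        rw [gauss, ← e.sum_comp]
        refine Finset.sum_congr rfl fun g _ => ?_
        rw [← AddChar.map_add_eq_mul]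
        congr 1
        simp only [e, Equiv.coe_fn_mk, Prod.fst_zero, Prod.snd_zero, Int.cast_zero, zero_mul,
          add_zero, ev, A', hD', D]
        have hA'' : (Q.A : ZMod p) ≠ 0 := hA
        push_cast
        field_simp
        ring
    _ = (∑ x : ZMod p, ψ ((b : ZMod p) * A' * x ^ 2))
          * ∑ y : ZMod p, ψ ((b : ZMod p) * D' / (4 * A') * y ^ 2) := by
        rw [Finset.sum_mul_sum, Fintype.sum_prod_type]
    _ = _ := by
        rw [hsum _ hu1, hsum _ hu2, mul_mul_mul_comm, ← map_mul, ← sq,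
          gaussSum_sq hχ1 hχ2 hψp, ← mul_assoc, ← map_mul, ZMod.card,
          show (b : ZMod p) * A' * ((b : ZMod p) * D' / (4 * A')) * -1
            = ((b : ZMod p) / 2) ^ 2 * -D' by field_simp; ring,
          map_mul, hχ, MulChar.ringHomComp_apply, MulChar.ringHomComp_apply,
          quadraticChar_sq_one' (div_ne_zero hb h2)]
        simp [hD']

end BinForm

/-- On `Γ₀(D)` binary theta series of discriminant `-D` transform by a common sign. -/
theorem exists_sign {ι : Type*} [Fintype ι] {D : ℤ} (Qs : ι → BinForm) (hQ : ∀ i, (Qs i).D = D)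
    (hD : 0 < D) {a b c d : ℤ} (hdet : a * d - b * c = 1) (hc : D ∣ c) :
    ∃ ε : ℤ, (ε = 1 ∨ ε = -1) ∧ ∀ i, ∀ τ : ℂ, 0 < τ.im →
      (Qs i).theta ((a * τ + b) / (c * τ + d)) = ε * (c * τ + d) * (Qs i).theta τ := by
  rcases eq_or_ne c 0 with rfl | hc0
  · have had : a * d = 1 := by linarith
    rcases Int.eq_one_or_neg_one_of_mul_eq_one had with rfl | rfl
    · obtain rfl : d = 1 := by linarith
      refine ⟨1, Or.inl rfl, fun i τ _ => ?_⟩
      simp [BinForm.theta_add_intCast]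
    · obtain rfl : d = -1 := by linarith
      refine ⟨-1, Or.inr rfl, fun i τ _ => ?_⟩
      push_cast
      rw [show (-1 * τ + (b : ℂ)) / (0 * τ + -1) = τ + ((-b : ℤ) : ℂ) by push_cast; ring,
        BinForm.theta_add_intCast]
      ring
  have : NeZero c.natAbs := ⟨by simpa using hc0⟩
  have hu : IsUnit ((d : ℤ) : ZMod c.natAbs) := by
    refine IsUnit.of_mul_eq_one (a : ZMod c.natAbs) ?_
    have h1 := congrArg (fun z : ℤ => (z : ZMod c.natAbs)) hdet
    push_cast at h1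
    have h2 : (c : ZMod c.natAbs) = 0 :=
      (ZMod.intCast_zmod_eq_zero_iff_dvd _ _).2 Int.natAbs_dvd_self
    rw [h2, mul_zero, sub_zero] at h1
    linear_combination h1
  obtain ⟨p, hpgt, hpp, hpd⟩ := Nat.forall_exists_prime_gt_and_eq_mod hu
    (2 + D.natAbs + ∑ i, (Qs i).A.natAbs)
  obtain ⟨j, hj⟩ : (c : ℤ) ∣ (p : ℤ) - d := by
    have h1 : (((p : ℤ) - d : ℤ) : ZMod c.natAbs) = 0 := by push_cast; rw [hpd, sub_self]
    rw [ZMod.intCast_zmod_eq_zero_iff_dvd] at h1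
    exact Int.natAbs_dvd.1 h1
  have : Fact p.Prime := ⟨hpp⟩
  have hdet' : a * (p : ℤ) - (b + a * j) * c = 1 := by linear_combination hdet + a * hj
  have hDp : ((D : ℤ) : ZMod p) ≠ 0 := by
    rw [ne_eq, ZMod.intCast_zmod_eq_zero_iff_dvd]
    intro h
    have := Nat.le_of_dvd (by omega) (Int.natCast_dvd.1 h)
    omega
  have hb : ((b + a * j : ℤ) : ZMod p) ≠ 0 := by
    intro h
    have h1 := congrArg (fun z : ℤ => (z : ZMod p)) hdet'
    simp only [Int.cast_sub, Int.cast_mul, Int.cast_one, Int.cast_natCast, ZMod.natCast_self,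
      mul_zero, h, zero_mul, sub_zero] at h1
    exact zero_ne_one h1
  refine ⟨quadraticChar (ZMod p) (-D), quadraticChar_dichotomy (by simpa using hDp), fun i τ hτ => ?_⟩
  have hA : ((Qs i).A : ZMod p) ≠ 0 := by
    rw [ne_eq, ZMod.intCast_zmod_eq_zero_iff_dvd]
    intro h
    have h1 := Nat.le_of_dvd (Int.natAbs_pos.2 (Qs i).hA.ne') (Int.natCast_dvd.1 h)
    have h2 := Finset.single_le_sum (f := fun i => (Qs i).A.natAbs) (fun _ _ => Nat.zero_le _) (Finset.mem_univ i)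
    omega
  have hco : IsCoprime (Qs i).D (p : ℤ) := by
    rw [hQ i]
    refine (((Nat.prime_iff_prime_int.1 hpp).coprime_iff_not_dvd).2 ?_).symm
    rwa [← ZMod.intCast_zmod_eq_zero_iff_dvd]
  have hτ' : 0 < (τ - j).im := by simpa using hτ
  have h := (Qs i).theta_moebius_gamma0 p hdet' hco (hQ i ▸ hc) hτ'
  rw [(Qs i).gauss_zero_prime p (by omega) hb hA (by rw [hQ i]; exact hDp), hQ i,
    mul_div_cancel_right₀ _ (Nat.cast_ne_zero.2 hpp.ne_zero : (p : ℂ) ≠ 0)] at h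
  have hpC : (p : ℂ) = (d : ℂ) + (c : ℂ) * j := by
    have : (p : ℤ) = d + c * j := by linarith
    exact_mod_cast congrArg (Int.cast : ℤ → ℂ) this
  have e1 : (a : ℂ) * (τ - j) + ((b + a * j : ℤ) : ℂ) = a * τ + b := by push_cast; ring
  have e2 : (c : ℂ) * (τ - j) + (p : ℂ) = c * τ + d := by rw [hpC]; ring
  rw [e1, e2, show τ - (j : ℂ) = τ + ((-j : ℤ) : ℂ) by push_cast; ring,
    BinForm.theta_add_intCast] at h
  exact h

end Fermat.Agent.Dihedral
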