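import Fermat.Agent.Dihedral.Inversion

/-!
# Norm forms of ideals

Norm forms of ideals of an imaginary quadratic field.
-/

noncomputable section

namespace Fermat.Agent.Dihedral

open NumberField Module
open scoped ComplexConjugate nonZeroDivisors

variable (K : Type*) [Field K] [NumberField K]

/-- Hypothesis: `K` is an imaginary quadratic field. -/
class IsImagQuadratic : Prop where
  finrank_eq : finrank ℚ K = 2
  totallyComplex : IsTotallyComplex K

variable [IsImagQuadratic K]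

/-- A chosen complex embedding. -/
def emb : K →ₐ[ℚ] ℂ := (Classical.arbitrary (K →+* ℂ)).toRatAlgHom

/-- The conjugate embedding. -/
def embBar : K →ₐ[ℚ] ℂ := ((starRingEnd ℂ).comp (emb K).toRingHom).toRatAlgHom

omit [IsImagQuadratic K] in
theorem embBar_apply (x : K) : embBar K x = conj (emb K x) := rfl

theorem emb_ne_embBar : emb K ≠ embBar K := by
  intro h
  have : IsTotallyComplex K := IsImagQuadratic.totallyComplex
  refine IsTotallyComplex.complexEmbedding_not_isReal (emb K).toRingHom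
    (ComplexEmbedding.isReal_iff.2 ?_)
  refine RingHom.ext fun x => ?_
  exact (DFunLike.congr_fun h x).symm

open scoped Classical in
theorem univ_embeddings :
    (Finset.univ : Finset (K →ₐ[ℚ] ℂ)) = {emb K, embBar K} := by
  refine (Finset.eq_univ_of_card _ ?_).symm
  rw [Finset.card_pair (emb_ne_embBar K), AlgHom.card, IsImagQuadratic.finrank_eq]

open scoped Classical in
theorem cast_norm_eq (x : K) : (Algebra.norm ℚ x : ℂ) = Complex.normSq (emb K x) := by
  have h := Algebra.norm_eq_prod_embeddings ℚ ℂ x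
  rw [univ_embeddings, Finset.prod_pair (emb_ne_embBar K), eq_ratCast] at h
  rw [h, embBar_apply, Complex.mul_conj]

open scoped Classical in
theorem cast_trace_eq (x : K) : (Algebra.trace ℚ K x : ℂ) = ((2 * (emb K x).re : ℝ) : ℂ) := by
  have h := trace_eq_sum_embeddings ℂ (K := ℚ) (x := x)
  rw [univ_embeddings, Finset.sum_pair (emb_ne_embBar K), eq_ratCast] at h
  rw [h, embBar_apply, Complex.add_conj]

theorem normSq_emb_eq_norm (x : 𝓞 K) :
    Complex.normSq (emb K (x : K)) = ((Algebra.norm ℤ x : ℤ) : ℝ) := by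
  have h := cast_norm_eq K (x : K)
  rw [← Algebra.coe_norm_int] at h
  apply Complex.ofReal_injective
  rw [← h]
  push_cast
  rfl

theorem norm_int_nonneg (x : 𝓞 K) : 0 ≤ Algebra.norm ℤ x := by
  have := normSq_emb_eq_norm K x
  exact_mod_cast this ▸ Complex.normSq_nonneg _

theorem absNorm_span_eq (x : 𝓞 K) :
    (Ideal.absNorm (Ideal.span {x}) : ℤ) = Algebra.norm ℤ x := by
  rw [Ideal.absNorm_span_singleton]
  exact Int.natAbs_of_nonneg (norm_int_nonneg K x)

/-- A `ℤ`-basis of the integers indexed by `Fin 2`. -/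
def intBasis : Basis (Fin 2) ℤ (𝓞 K) :=
  (RingOfIntegers.basis K).reindex (Fintype.equivFinOfCardEq (by
    rw [← Module.finrank_eq_card_chooseBasisIndex, RingOfIntegers.rank,
      IsImagQuadratic.finrank_eq]))

/-- The discriminant through the covolume of the ring of integers in `ℂ`. -/
theorem discr_eq (b : Basis (Fin 2) ℤ (𝓞 K)) :
    (discr K : ℝ) = -4 * ((emb K (b 0 : K)).re * (emb K (b 1 : K)).im
      - (emb K (b 0 : K)).im * (emb K (b 1 : K)).re) ^ 2 := by
  have h1 : discr K = Algebra.discr ℤ b := (discr_eq_discr K b).symm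
  have h2 : (discr K : ℚ) = Algebra.discr ℚ (b.localizationLocalization ℚ ℤ⁰ K) := by
    rw [h1]
    exact (Algebra.discr_localizationLocalization ℤ ℤ⁰ K b).symm
  have hb : ∀ i, b.localizationLocalization ℚ ℤ⁰ K i = (b i : K) := fun i =>
    Module.Basis.localizationLocalization_apply _ _ _ b i
  rw [Algebra.discr_def, Matrix.det_fin_two] at h2
  simp only [Algebra.traceMatrix_apply, Algebra.traceForm_apply, hb] at h2
  apply Complex.ofReal_injective
  have h3 := congrArg (fun q : ℚ => (q : ℂ)) h2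
  push_cast at h3
  simp only [cast_trace_eq, map_mul] at h3
  push_cast
  rw [h3]
  simp only [Complex.mul_re]
  push_cast
  ring

variable {K}

theorem norm_dvd_of_mem {I : Ideal (𝓞 K)} {x : 𝓞 K} (hx : x ∈ I) :
    (Ideal.absNorm I : ℤ) ∣ Algebra.norm ℤ x := by
  rw [← absNorm_span_eq]
  exact Int.natCast_dvd_natCast.2
    (Ideal.absNorm_dvd_absNorm_of_le ((Ideal.span_singleton_le_iff_mem I).2 hx))

/-- A `ℤ`-basis of a non-zero ideal. -/
def idealBasis (I : (Ideal (𝓞 K))⁰) : Basis (Fin 2) ℤ (I : Ideal (𝓞 K)) :=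
  Ideal.selfBasis (intBasis K) I (nonZeroDivisors.coe_ne_zero I)

/-- The element of the ideal with given coordinates. -/
def lat (I : (Ideal (𝓞 K))⁰) (m : ℤ × ℤ) : 𝓞 K :=
  m.1 • (idealBasis I 0 : 𝓞 K) + m.2 • (idealBasis I 1 : 𝓞 K)

theorem lat_mem (I : (Ideal (𝓞 K))⁰) (m : ℤ × ℤ) : lat I m ∈ (I : Ideal (𝓞 K)) :=
  Ideal.add_mem _ (zsmul_mem (idealBasis I 0).2 _) (zsmul_mem (idealBasis I 1).2 _)

/-- Coordinates on an ideal. -/
def latEquiv (I : (Ideal (𝓞 K))⁰) : ℤ × ℤ ≃ (I : Ideal (𝓞 K)) :=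
  ((LinearEquiv.finTwoArrow ℤ ℤ).symm.trans (idealBasis I).equivFun.symm).toEquiv

theorem latEquiv_apply (I : (Ideal (𝓞 K))⁰) (m : ℤ × ℤ) : (latEquiv I m : 𝓞 K) = lat I m := by
  simp [latEquiv, lat, Basis.equivFun_symm_apply, Fin.sum_univ_two]

theorem emb_lat (I : (Ideal (𝓞 K))⁰) (m : ℤ × ℤ) :
    emb K (lat I m : K) = (m.1 : ℂ) * emb K ((idealBasis I 0 : 𝓞 K) : K)
      + (m.2 : ℂ) * emb K ((idealBasis I 1 : 𝓞 K) : K) := by
  simp [lat, zsmul_eq_mul]

/-- The quotient `N(x)/N(I)` on coordinates. -/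
def normQuot (I : (Ideal (𝓞 K))⁰) (m : ℤ × ℤ) : ℤ :=
  Algebra.norm ℤ (lat I m) / (Ideal.absNorm (I : Ideal (𝓞 K)) : ℤ)

theorem normQuot_mul (I : (Ideal (𝓞 K))⁰) (m : ℤ × ℤ) :
    (Ideal.absNorm (I : Ideal (𝓞 K)) : ℤ) * normQuot I m = Algebra.norm ℤ (lat I m) :=
  Int.mul_ediv_cancel' (norm_dvd_of_mem (lat_mem I m))

omit [IsImagQuadratic K] in
theorem absNorm_pos (I : (Ideal (𝓞 K))⁰) : 0 < Ideal.absNorm (I : Ideal (𝓞 K)) :=
  Nat.pos_of_ne_zero (Ideal.absNorm_ne_zero_of_nonZeroDivisors I)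

/-- The middle coefficient of the norm form. -/
def midCoeff (I : (Ideal (𝓞 K))⁰) : ℤ :=
  normQuot I (1, 1) - normQuot I (1, 0) - normQuot I (0, 1)

theorem normQuot_real (I : (Ideal (𝓞 K))⁰) (m : ℤ × ℤ) :
    (normQuot I m : ℝ) = Complex.normSq ((m.1 : ℂ) * emb K ((idealBasis I 0 : 𝓞 K) : K)
      + (m.2 : ℂ) * emb K ((idealBasis I 1 : 𝓞 K) : K)) /
        Ideal.absNorm (I : Ideal (𝓞 K)) := by
  rw [← emb_lat, normSq_emb_eq_norm, ← normQuot_mul, eq_div_iff
    (Nat.cast_ne_zero.2 (absNorm_pos I).ne')]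
  push_cast
  ring

theorem disc_normForm (I : (Ideal (𝓞 K))⁰) :
    4 * normQuot I (1, 0) * normQuot I (0, 1) - midCoeff I ^ 2 = -discr K := by
  set u := emb K ((idealBasis I 0 : 𝓞 K) : K) with hu
  set v := emb K ((idealBasis I 1 : 𝓞 K) : K) with hv
  set N : ℝ := ((Ideal.absNorm (I : Ideal (𝓞 K)) : ℕ) : ℝ) with hN
  have hN0 : N ≠ 0 := Nat.cast_ne_zero.2 (absNorm_pos I).ne'
  have hA : (normQuot I (1, 0) : ℝ) * N = u.re ^ 2 + u.im ^ 2 := by
    rw [normQuot_real, div_mul_cancel₀ _ hN0]; simp [Complex.normSq_apply, hu]; ring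
  have hC : (normQuot I (0, 1) : ℝ) * N = v.re ^ 2 + v.im ^ 2 := by
    rw [normQuot_real, div_mul_cancel₀ _ hN0]; simp [Complex.normSq_apply, hv]; ring
  have hB : (midCoeff I : ℝ) * N = 2 * (u.re * v.re + u.im * v.im) := by
    rw [midCoeff, Int.cast_sub, Int.cast_sub, sub_mul, sub_mul, hA, hC, normQuot_real,
      div_mul_cancel₀ _ hN0]
    simp [Complex.normSq_apply, hu, hv]; ring
  -- change of basis to an integral basis
  set b := intBasis K
  set p := emb K (b 0 : K) with hp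
  set q := emb K (b 1 : K) with hq
  have hdisc : (discr K : ℝ) = -4 * (p.re * q.im - p.im * q.re) ^ 2 := discr_eq K b
  have hdet : ((b.det ((↑) ∘ idealBasis I)).natAbs : ℤ) = Ideal.absNorm (I : Ideal (𝓞 K)) := by
    rw [Ideal.natAbs_det_basis_change]
  set r00 := b.repr (idealBasis I 0 : 𝓞 K) 0
  set r01 := b.repr (idealBasis I 0 : 𝓞 K) 1
  set r10 := b.repr (idealBasis I 1 : 𝓞 K) 0
  set r11 := b.repr (idealBasis I 1 : 𝓞 K) 1
  have hdet' : ((r00 * r11 - r10 * r01 : ℤ) : ℝ) ^ 2 = N ^ 2 := by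
    have : b.det ((↑) ∘ idealBasis I) = r00 * r11 - r10 * r01 := by
      rw [Basis.det_apply, Matrix.det_fin_two]
      simp [Basis.toMatrix_apply, r00, r01, r10, r11]
    have h2 : ((r00 * r11 - r10 * r01) ^ 2 : ℤ)
        = (Ideal.absNorm (I : Ideal (𝓞 K)) : ℤ) ^ 2 := by
      rw [← hdet, this, Int.natAbs_sq]
    rw [hN]; exact_mod_cast h2
  have hcomb : ∀ x : 𝓞 K, emb K (x : K) = (b.repr x 0 : ℂ) * p + (b.repr x 1 : ℂ) * q := by
    intro x
    conv_lhs => rw [← b.sum_repr x]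
    simp [Fin.sum_univ_two, hp, hq, zsmul_eq_mul]
  have hu' : u = (r00 : ℂ) * p + (r01 : ℂ) * q := hcomb _
  have hv' : v = (r10 : ℂ) * p + (r11 : ℂ) * q := hcomb _
  apply Int.cast_injective (α := ℝ)
  apply mul_left_cancel₀ (pow_ne_zero 2 hN0)
  push_cast at hdet' ⊢
  calc N ^ 2 * (4 * (normQuot I (1, 0) : ℝ) * normQuot I (0, 1) - (midCoeff I : ℝ) ^ 2)
      = 4 * ((normQuot I (1, 0) : ℝ) * N) * ((normQuot I (0, 1) : ℝ) * N)
          - ((midCoeff I : ℝ) * N) ^ 2 := by ring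
    _ = 4 * (u.re * v.im - u.im * v.re) ^ 2 := by rw [hA, hB, hC]; ring
    _ = 4 * (((r00 : ℝ) * r11 - r10 * r01) ^ 2) * (p.re * q.im - p.im * q.re) ^ 2 := by
        rw [hu', hv']; simp; ring
    _ = N ^ 2 * -(discr K : ℝ) := by rw [hdet', hdisc]; ring

theorem discr_neg : discr K < 0 := by
  have h := discr_eq K (intBasis K)
  have h0 : discr K ≠ 0 := discr_ne_zero K
  have : (discr K : ℝ) ≤ 0 := by
    rw [h]; nlinarith [sq_nonneg ((emb K (intBasis K 0 : K)).re * (emb K (intBasis K 1 : K)).im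
      - (emb K (intBasis K 0 : K)).im * (emb K (intBasis K 1 : K)).re)]
  have : discr K ≤ 0 := by exact_mod_cast this
  omega

/-- The norm form of an ideal. -/
def normForm (I : (Ideal (𝓞 K))⁰) : BinForm where
  A := normQuot I (1, 0)
  B := midCoeff I
  C := normQuot I (0, 1)
  hA := by
    have h := disc_normForm I
    have hd := discr_neg (K := K)
    have hA0 : 0 ≤ normQuot I (1, 0) := Int.ediv_nonneg (norm_int_nonneg K _) (by positivity)
    rcases hA0.eq_or_lt with h0 | h0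
    · rw [← h0] at h; nlinarith [sq_nonneg (midCoeff I)]
    · exact h0
  hD := by rw [disc_normForm I]; have := discr_neg (K := K); omega

theorem normForm_D (I : (Ideal (𝓞 K))⁰) : (normForm I).D = ((discr K).natAbs : ℤ) := by
  show 4 * normQuot I (1, 0) * normQuot I (0, 1) - midCoeff I ^ 2 = _
  rw [disc_normForm I]
  have := discr_neg (K := K); omega

theorem normQuot_eq_ev (I : (Ideal (𝓞 K))⁰) (m : ℤ × ℤ) :
    normQuot I m = (normForm I).ev m.1 m.2 := by
  apply Int.cast_injective (α := ℝ)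
  rw [BinForm.ev_intCast]
  simp only [BinForm.ev, normForm, midCoeff]
  push_cast
  rw [normQuot_real, normQuot_real, normQuot_real, normQuot_real]
  simp [Complex.normSq_apply]
  ring

theorem absNorm_mul_ev (I : (Ideal (𝓞 K))⁰) (m : ℤ × ℤ) :
    (Ideal.absNorm (I : Ideal (𝓞 K)) : ℤ) * (normForm I).ev m.1 m.2
      = Algebra.norm ℤ (lat I m) := by
  rw [← normQuot_eq_ev, normQuot_mul]

end Fermat.Agent.Dihedral
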