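import Mathlib

/-!
# Binary theta series and Poisson summation

Theta series of positive definite integral binary quadratic forms: summability and the
two-variable Poisson summation formula.
-/

noncomputable section

namespace Fermat.Agent.Dihedral

open Complex Real

/-- A positive definite integral binary quadratic form `A x² + B x y + C y²`. -/
structure BinForm where
  A : ℤ
  B : ℤ
  C : ℤ
  hA : 0 < A
  hD : 0 < 4 * A * C - B ^ 2

namespace BinForm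

variable (Q : BinForm)

/-- The absolute value of the discriminant. -/
def D : ℤ := 4 * Q.A * Q.C - Q.B ^ 2

theorem D_pos : 0 < Q.D := Q.hD

theorem C_pos : 0 < Q.C := by
  have := Q.hD; have := Q.hA; nlinarith [sq_nonneg Q.B]

/-- The value of the form in a commutative ring. -/
def ev {R : Type*} [CommRing R] (x y : R) : R :=
  (Q.A : R) * x ^ 2 + (Q.B : R) * x * y + (Q.C : R) * y ^ 2

theorem ev_intCast {R : Type*} [CommRing R] (x y : ℤ) :
    ((Q.ev x y : ℤ) : R) = Q.ev (x : R) (y : R) := by simp [ev]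

theorem ev_ofReal (x y : ℝ) : ((Q.ev x y : ℝ) : ℂ) = Q.ev (x : ℂ) (y : ℂ) := by simp [ev]

/-- The adjugate form. -/
def adj : BinForm where
  A := Q.C
  B := -Q.B
  C := Q.A
  hA := Q.C_pos
  hD := by have := Q.hD; nlinarith

@[simp] theorem adj_D : Q.adj.D = Q.D := by simp [adj, D]; ring

/-- The coercivity constant. -/
def lowerConst : ℝ := (Q.D : ℝ) / (4 * ((Q.A : ℝ) + Q.C))

theorem lowerConst_pos : 0 < Q.lowerConst := by
  have hA : (0 : ℝ) < Q.A := by exact_mod_cast Q.hA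
  have hC : (0 : ℝ) < Q.C := by exact_mod_cast Q.C_pos
  have hD : (0 : ℝ) < Q.D := by exact_mod_cast Q.D_pos
  unfold lowerConst; positivity

theorem lowerConst_mul_le (x y : ℝ) : Q.lowerConst * (x ^ 2 + y ^ 2) ≤ Q.ev x y := by
  have hA : (0 : ℝ) < Q.A := by exact_mod_cast Q.hA
  have hC : (0 : ℝ) < Q.C := by exact_mod_cast Q.C_pos
  rw [lowerConst, D, ev, div_mul_eq_mul_div, div_le_iff₀ (by positivity)]
  push_cast
  nlinarith [sq_nonneg (2 * (Q.A : ℝ) * x + Q.B * y), sq_nonneg (2 * (Q.C : ℝ) * y + Q.B * x)]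

theorem ev_real_nonneg (x y : ℝ) : 0 ≤ Q.ev x y :=
  le_trans (mul_nonneg Q.lowerConst_pos.le (by positivity)) (Q.lowerConst_mul_le x y)

end BinForm

theorem summable_exp_neg_sq_add {δ : ℝ} (hδ : 0 < δ) (v : ℝ) :
    Summable fun n : ℤ => rexp (-δ * (n + v) ^ 2) := by
  have hT : 0 < (((δ / π : ℝ) : ℂ) * I).im := by
    simpa using div_pos hδ Real.pi_pos
  have h := ((summable_jacobiTheta₂_term_iff (((δ / π : ℝ) : ℂ) * I * v) _).2 hT).norm
  refine (h.mul_left (rexp (-δ * v ^ 2))).congr fun n => ?_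
  rw [norm_jacobiTheta₂_term, ← Real.exp_add]
  congr 1
  simp only [mul_im, mul_re, ofReal_re, ofReal_im, I_re, I_im]
  field_simp
  ring

theorem summable_exp_neg_sq_add_prod {δ : ℝ} (hδ : 0 < δ) (v₁ v₂ : ℝ) :
    Summable fun m : ℤ × ℤ => rexp (-δ * ((m.1 + v₁) ^ 2 + (m.2 + v₂) ^ 2)) := by
  refine ((summable_exp_neg_sq_add hδ v₁).mul_of_nonneg (summable_exp_neg_sq_add hδ v₂)
    (fun n => (Real.exp_pos _).le) (fun n => (Real.exp_pos _).le)).congr fun m => ?_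
  rw [← Real.exp_add]; ring_nf

theorem norm_cexp_two_pi_I_mul_real (τ : ℂ) (r : ℝ) :
    ‖cexp (2 * π * I * τ * r)‖ = rexp (-2 * π * τ.im * r) := by
  rw [Complex.norm_exp]
  congr 1
  simp [mul_re, mul_im]

namespace BinForm

variable (Q : BinForm)

/-- A term of the shifted theta series. -/
def thetaTerm (v₁ v₂ : ℝ) (τ : ℂ) (m : ℤ × ℤ) : ℂ :=
  cexp (2 * π * I * τ * Q.ev ((m.1 : ℂ) + v₁) ((m.2 : ℂ) + v₂))

theorem norm_thetaTerm (v₁ v₂ : ℝ) (τ : ℂ) (m : ℤ × ℤ) :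
    ‖Q.thetaTerm v₁ v₂ τ m‖ = rexp (-2 * π * τ.im * Q.ev ((m.1 : ℝ) + v₁) ((m.2 : ℝ) + v₂)) := by
  rw [thetaTerm, show Q.ev ((m.1 : ℂ) + v₁) ((m.2 : ℂ) + v₂)
    = ((Q.ev ((m.1 : ℝ) + v₁) ((m.2 : ℝ) + v₂) : ℝ) : ℂ) by simp [ev_ofReal]]
  exact norm_cexp_two_pi_I_mul_real _ _

theorem norm_thetaTerm_le (v₁ v₂ : ℝ) {τ : ℂ} {t : ℝ} (ht : t ≤ τ.im) (m : ℤ × ℤ) :
    ‖Q.thetaTerm v₁ v₂ τ m‖ ≤
      rexp (-2 * π * t * Q.ev ((m.1 : ℝ) + v₁) ((m.2 : ℝ) + v₂)) := by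
  rw [norm_thetaTerm, Real.exp_le_exp]
  have := Q.ev_real_nonneg ((m.1 : ℝ) + v₁) ((m.2 : ℝ) + v₂)
  nlinarith [mul_nonneg (mul_nonneg Real.pi_pos.le (sub_nonneg.2 ht)) this]

theorem summable_exp_ev (v₁ v₂ : ℝ) {t : ℝ} (ht : 0 < t) :
    Summable fun m : ℤ × ℤ =>
      rexp (-2 * π * t * Q.ev ((m.1 : ℝ) + v₁) ((m.2 : ℝ) + v₂)) := by
  refine Summable.of_nonneg_of_le (fun m => (Real.exp_pos _).le) (fun m => ?_)
    (summable_exp_neg_sq_add_prod (δ := 2 * π * t * Q.lowerConst)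
      (by have := Q.lowerConst_pos; positivity) v₁ v₂)
  rw [Real.exp_le_exp]
  have := mul_le_mul_of_nonneg_left (Q.lowerConst_mul_le ((m.1 : ℝ) + v₁) ((m.2 : ℝ) + v₂))
    (show 0 ≤ 2 * π * t by positivity)
  linarith

theorem summable_thetaTerm (v₁ v₂ : ℝ) {τ : ℂ} (hτ : 0 < τ.im) :
    Summable (Q.thetaTerm v₁ v₂ τ) :=
  Summable.of_norm_bounded (Q.summable_exp_ev v₁ v₂ hτ) (Q.norm_thetaTerm_le v₁ v₂ le_rfl)

/-- The shifted theta series. -/
def thetaShift (v₁ v₂ : ℝ) (τ : ℂ) : ℂ := ∑' m : ℤ × ℤ, Q.thetaTerm v₁ v₂ τ m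

end BinForm

/-- Poisson summation in one variable, with a linear term. -/
theorem tsum_gauss_shift (T l β : ℂ) :
    ∑' n : ℤ, cexp (π * I * T * ((n : ℂ) + β) ^ 2 + 2 * π * I * l * ((n : ℂ) + β)) =
      1 / (-I * T) ^ (1 / 2 : ℂ) *
        ∑' m : ℤ, cexp (-π * I * ((m : ℂ) - l) ^ 2 / T + 2 * π * I * m * β) := by
  rcases eq_or_ne T 0 with rfl | hT
  · have h0 : ((-I : ℂ) * 0) ^ (1 / 2 : ℂ) = 0 := by simp
    rw [h0, div_zero, zero_mul]
    refine tsum_eq_zero_of_not_summable fun hs => ?_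
    have h2 : Summable fun n : ℤ => jacobiTheta₂_term n l 0 := by
      refine (hs.mul_left (cexp (-(2 * π * I * l * β)))).congr fun n => ?_
      rw [jacobiTheta₂_term, ← Complex.exp_add]; ring_nf
    exact absurd ((summable_jacobiTheta₂_term_iff _ _).1 h2) (by simp)
  calc ∑' n : ℤ, cexp (π * I * T * ((n : ℂ) + β) ^ 2 + 2 * π * I * l * ((n : ℂ) + β))
      = cexp (π * I * T * β ^ 2 + 2 * π * I * l * β) * jacobiTheta₂ (T * β + l) T := by
        rw [jacobiTheta₂, ← tsum_mul_left]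
        refine tsum_congr fun n => ?_
        rw [jacobiTheta₂_term, ← Complex.exp_add]
        ring_nf
    _ = _ := by
        rw [jacobiTheta₂_functional_equation, jacobiTheta₂, ← tsum_mul_left, ← tsum_mul_left,
          ← tsum_mul_left]
        refine tsum_congr fun m => ?_
        rw [jacobiTheta₂_term]
        rw [show cexp (π * I * T * β ^ 2 + 2 * π * I * l * β) * (1 / (-I * T) ^ (1 / 2 : ℂ) *
              cexp (-π * I * (T * β + l) ^ 2 / T) *
              cexp (2 * π * I * m * ((T * β + l) / T) + π * I * m ^ 2 * (-1 / T)))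
            = 1 / (-I * T) ^ (1 / 2 : ℂ) * (cexp (π * I * T * β ^ 2 + 2 * π * I * l * β) *
              cexp (-π * I * (T * β + l) ^ 2 / T) *
              cexp (2 * π * I * m * ((T * β + l) / T) + π * I * m ^ 2 * (-1 / T))) by ring,
          ← Complex.exp_add, ← Complex.exp_add]
        congr 2
        field_simp
        ring

theorem ofReal_mul_cpow_half {r : ℝ} (hr : 0 < r) (z : ℂ) :
    ((r : ℂ) * z) ^ (1 / 2 : ℂ) = (Real.sqrt r : ℂ) * z ^ (1 / 2 : ℂ) := by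
  rcases eq_or_ne z 0 with rfl | hz
  · simp
  rw [Complex.cpow_def_of_ne_zero (mul_ne_zero (ofReal_ne_zero.2 hr.ne') hz),
    Complex.cpow_def_of_ne_zero hz, Complex.log_ofReal_mul hr hz, add_mul, Complex.exp_add,
    Real.sqrt_eq_rpow, Real.rpow_def_of_pos hr, Complex.ofReal_exp]
  push_cast; ring_nf

namespace BinForm

variable (Q : BinForm)

/-- Poisson summation for a binary quadratic form. -/
theorem thetaShift_eq (v₁ v₂ : ℝ) {τ : ℂ} (hτ : 0 < τ.im) :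
    Q.thetaShift v₁ v₂ τ = I / (τ * Real.sqrt Q.D) * ∑' m : ℤ × ℤ,
      cexp (2 * π * I * (-1 / ((Q.D : ℂ) * τ)) * Q.adj.ev (m.1 : ℂ) (m.2 : ℂ) +
        2 * π * I * (m.1 * v₁ + m.2 * v₂)) := by
  have hτ0 : τ ≠ 0 := by rintro rfl; simp at hτ
  have hA : (0 : ℝ) < Q.A := by exact_mod_cast Q.hA
  have hD : (0 : ℝ) < Q.D := by exact_mod_cast Q.D_pos
  have hAC : (Q.A : ℂ) ≠ 0 := by exact_mod_cast Q.hA.ne'
  have hDC : (Q.D : ℂ) ≠ 0 := by exact_mod_cast Q.D_pos.ne'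
  set T₁ : ℂ := 2 * Q.A * τ with hT₁
  set T₂ : ℂ := (Q.D : ℂ) * τ / (2 * Q.A) with hT₂
  have hT₁0 : T₁ ≠ 0 := by simp [hT₁, hτ0, hAC]
  have hT₁im : 0 < (-1 / T₁).im := by
    have h2 : 0 < T₁.im := by simp [hT₁, mul_im]; positivity
    rw [neg_div, one_div, neg_im, inv_im, neg_div, neg_neg]
    exact div_pos h2 (normSq_pos.2 hT₁0)
  have hT₂im : 0 < T₂.im := by
    rw [hT₂, show (Q.D : ℂ) * τ / (2 * Q.A) = (((Q.D : ℝ) / (2 * Q.A) : ℝ) : ℂ) * τ by
      push_cast; ring, Complex.mul_im, Complex.ofReal_re, Complex.ofReal_im, zero_mul, add_zero]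
    positivity
  set F : ℤ → ℤ → ℂ := fun y k =>
    cexp (π * I * (k : ℂ) ^ 2 * (-1 / T₁) + 2 * π * I * k * v₁) *
      cexp (π * I * T₂ * ((y : ℂ) + v₂) ^ 2 +
        2 * π * I * ((k : ℂ) * Q.B / (2 * Q.A)) * ((y : ℂ) + v₂)) with hF
  have hinner : ∀ y : ℤ, ∑' x : ℤ, Q.thetaTerm v₁ v₂ τ (x, y)
      = 1 / (-I * T₁) ^ (1 / 2 : ℂ) * ∑' k : ℤ, F y k := by
    intro y
    have key := tsum_gauss_shift T₁ 0
      ((v₁ : ℂ) + (Q.B : ℂ) * ((y : ℂ) + v₂) / (2 * Q.A))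
    have hl : ∀ x : ℤ, Q.thetaTerm v₁ v₂ τ (x, y) = cexp (π * I * T₂ * ((y : ℂ) + v₂) ^ 2) *
        cexp (π * I * T₁ * ((x : ℂ) + ((v₁ : ℂ) + (Q.B : ℂ) * ((y : ℂ) + v₂) / (2 * Q.A))) ^ 2 +
          2 * π * I * 0 * ((x : ℂ) + ((v₁ : ℂ) + (Q.B : ℂ) * ((y : ℂ) + v₂) / (2 * Q.A)))) := by
      intro x
      rw [thetaTerm, ← Complex.exp_add]
      congr 1
      simp only [ev, hT₁, hT₂, D]
      push_cast
      field_simp
      ring
    rw [tsum_congr hl, tsum_mul_left, key, mul_left_comm, ← tsum_mul_left]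
    refine congrArg _ (tsum_congr fun k => ?_)
    simp only [hF, ← Complex.exp_add]
    congr 1
    field_simp
    ring
  have hFn : ∀ y k : ℤ, ‖F y k‖ = ‖jacobiTheta₂_term k 0 (-1 / T₁)‖ *
      rexp (-(π * T₂.im) * ((y : ℝ) + v₂) ^ 2) := by
    intro y k
    rw [hF, norm_mul, norm_jacobiTheta₂_term, Complex.norm_exp, Complex.norm_exp]
    congr 1
    · congr 1
      simp [mul_re, mul_im, sq]
    · congr 1
      rw [show (k : ℂ) * Q.B / (2 * Q.A) = (((k : ℝ) * Q.B / (2 * Q.A) : ℝ) : ℂ) by push_cast; rfl]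
      generalize (k : ℝ) * Q.B / (2 * Q.A) = r
      simp [mul_re, mul_im, sq]
  have hFs : Summable (Function.uncurry F) := by
    refine Summable.of_norm ?_
    refine ((Equiv.prodComm ℤ ℤ).summable_iff).1 ?_
    refine (((summable_jacobiTheta₂_term_iff 0 _).2 hT₁im).norm.mul_of_nonneg
      (summable_exp_neg_sq_add (δ := π * T₂.im) (by positivity) v₂)
      (fun n => norm_nonneg _) (fun n => (Real.exp_pos _).le)).congr fun m => ?_
    simp only [Function.comp_apply, Equiv.prodComm_apply, Prod.swap, Function.uncurry_apply_pair]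
    rw [hFn]
  have houter : ∀ k : ℤ, ∑' y : ℤ, F y k = 1 / (-I * T₂) ^ (1 / 2 : ℂ) * ∑' j : ℤ,
      cexp (2 * π * I * (-1 / ((Q.D : ℂ) * τ)) * Q.adj.ev (k : ℂ) (j : ℂ) +
        2 * π * I * (k * v₁ + j * v₂)) := by
    intro k
    simp only [hF]
    rw [tsum_mul_left, tsum_gauss_shift, mul_left_comm, ← tsum_mul_left]
    refine congrArg _ (tsum_congr fun j => ?_)
    rw [← Complex.exp_add]
    congr 1
    simp only [ev, adj, hT₁, hT₂]
    push_cast
    field_simp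
    simp only [D]
    push_cast
    ring
  have hconst : 1 / (-I * T₁) ^ (1 / 2 : ℂ) * (1 / (-I * T₂) ^ (1 / 2 : ℂ))
      = I / (τ * Real.sqrt Q.D) := by
    have hz : -I * τ ≠ 0 := mul_ne_zero (neg_ne_zero.2 I_ne_zero) hτ0
    rw [show -I * T₁ = ((2 * Q.A : ℝ) : ℂ) * (-I * τ) by rw [hT₁]; push_cast; ring,
      show -I * T₂ = (((Q.D : ℝ) / (2 * Q.A) : ℝ) : ℂ) * (-I * τ) by rw [hT₂]; push_cast; ring,
      ofReal_mul_cpow_half (by positivity), ofReal_mul_cpow_half (by positivity),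
      div_mul_div_comm, one_mul, mul_mul_mul_comm, ← Complex.ofReal_mul,
      ← Real.sqrt_mul (by positivity), ← Complex.cpow_add _ _ hz,
      show (2 * (Q.A : ℝ)) * ((Q.D : ℝ) / (2 * Q.A)) = Q.D by field_simp]
    norm_num
    have : (Real.sqrt Q.D : ℂ) ≠ 0 := ofReal_ne_zero.2 (Real.sqrt_pos.2 hD).ne'
    field_simp
  have hR : Summable fun m : ℤ × ℤ =>
      cexp (2 * π * I * (-1 / ((Q.D : ℂ) * τ)) * Q.adj.ev (m.1 : ℂ) (m.2 : ℂ) +
        2 * π * I * (m.1 * v₁ + m.2 * v₂)) := by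
    have him : 0 < (-1 / ((Q.D : ℂ) * τ)).im := by
      rw [neg_div, one_div, neg_im, inv_im, neg_div, neg_neg]
      exact div_pos (by simp [mul_im]; positivity) (normSq_pos.2 (mul_ne_zero hDC hτ0))
    refine Summable.of_norm_bounded (Q.adj.summable_exp_ev 0 0 him) fun m => ?_
    refine le_trans (le_of_eq ?_) (Q.adj.norm_thetaTerm_le 0 0 le_rfl m)
    rw [Complex.exp_add, norm_mul, show ((2 : ℂ) * π * I * ((m.1 : ℂ) * v₁ + (m.2 : ℂ) * v₂))
      = ((2 * π * ((m.1 : ℝ) * v₁ + (m.2 : ℝ) * v₂) : ℝ) : ℂ) * I by push_cast; ring,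
      Complex.norm_exp_ofReal_mul_I, mul_one, thetaTerm]
    simp
  have hx : Summable fun p : ℤ × ℤ => Q.thetaTerm v₁ v₂ τ (p.2, p.1) :=
    (Q.summable_thetaTerm v₁ v₂ hτ).comp_injective (Equiv.prodComm ℤ ℤ).injective
  rw [thetaShift, ← (Equiv.prodComm ℤ ℤ).tsum_eq]
  simp only [Equiv.prodComm_apply, Prod.swap]
  rw [hx.tsum_prod, tsum_congr hinner, tsum_mul_left,
    ← hFs.tsum_comm, tsum_congr houter, tsum_mul_left, ← hR.tsum_prod, ← mul_assoc, hconst]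

end BinForm

end Fermat.Agent.Dihedral
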