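import Mathlib

/-!
# Frobenius traces modulo 2

The mod `2` Frobenius traces of the dihedral representations attached to cubic class characters.
-/

noncomputable section

namespace Fermat.Agent.Dihedral

open NumberField
open scoped nonZeroDivisors

variable (K : Type) [Field K] [NumberField K]

open scoped Classical in
/-- The mod `2` Frobenius trace of the dihedral representation attached to a cubic class
character `χ` of the quadratic field `K`, at a prime `ℓ`; at `2` and at the ramified primes it is
the eigenvalue `1` of `U`. -/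
def traceTwo (χ : ClassGroup (𝓞 K) →* Multiplicative (ZMod 3)) (ℓ : ℕ) : ℤ :=
  if ℓ = 2 ∨ (ℓ : ℤ) ∣ discr K then 1
  else if ∃ P : (Ideal (𝓞 K))⁰, (P : Ideal (𝓞 K)).IsPrime ∧
      Ideal.absNorm (P : Ideal (𝓞 K)) = ℓ ∧ χ (ClassGroup.mk0 P) ≠ 1 then 1
  else 0

theorem traceTwo_two (χ : ClassGroup (𝓞 K) →* Multiplicative (ZMod 3)) :
    traceTwo K χ 2 = 1 := by simp [traceTwo]

theorem traceTwo_of_dvd_discr (χ : ClassGroup (𝓞 K) →* Multiplicative (ZMod 3)) {ℓ : ℕ}
    (h : (ℓ : ℤ) ∣ discr K) : traceTwo K χ ℓ = 1 := by simp [traceTwo, h]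

end Fermat.Agent.Dihedral
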